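import Fermat.Agent.S51.Count

/-!
# S51: from a Galois-stable line to rational data
-/

set_option autoImplicit false
set_option linter.style.haveILetI false

namespace Fermat.Agent.S51

open WeierstrassCurve WeierstrassCurve.Affine

theorem gal_isGalois : IsGalois ℚ (AlgebraicClosure ℚ) := by
  haveI : Algebra.IsAlgebraic ℚ (AlgebraicClosure ℚ) := AlgebraicClosure.isAlgebraic ℚ
  haveI : IsAlgClosure ℚ (AlgebraicClosure ℚ) := ⟨inferInstance, inferInstance⟩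
  haveI : Normal ℚ (AlgebraicClosure ℚ) := IsAlgClosure.normal ℚ (AlgebraicClosure ℚ)
  exact ⟨⟩

/-- (G0) Galois descent: an element of `ℚ̄` fixed by every automorphism is rational. -/
theorem rat_of_fixed (x : AlgebraicClosure ℚ)
    (h : ∀ σ : AlgebraicClosure ℚ ≃ₐ[ℚ] AlgebraicClosure ℚ, σ x = x) :
    ∃ q : ℚ, algebraMap ℚ (AlgebraicClosure ℚ) q = x := by
  haveI := gal_isGalois
  exact (InfiniteGalois.mem_range_algebraMap_iff_fixed (k := ℚ) (K := AlgebraicClosure ℚ) x).mpr h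

/-- A proper nonzero subspace of an `𝔽_p`-vector space with at most `p ^ 2` elements is a line. -/
theorem gal_exists_generator {p : ℕ} [Fact p.Prime] {V : Type*} [AddCommGroup V]
    [Module (ZMod p) V] [Finite V] (hcard : Nat.card V ≤ p ^ 2) (N : Submodule (ZMod p) V)
    (hN0 : N ≠ ⊥) (hN1 : N ≠ ⊤) :
    ∃ P : V, P ≠ 0 ∧ P ∈ N ∧ ∀ Q ∈ N, ∃ c : ZMod p, Q = c • P := by
  have hp : 1 < p := (Fact.out : p.Prime).one_lt
  haveI : Module.Finite (ZMod p) V := Module.Finite.of_finite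
  have h1 : Nat.card V = p ^ Module.finrank (ZMod p) V := by
    have := Module.natCard_eq_pow_finrank (K := ZMod p) (V := V)
    rwa [Nat.card_zmod] at this
  have h2 : Module.finrank (ZMod p) V ≤ 2 := by
    rw [h1] at hcard
    exact (Nat.pow_le_pow_iff_right hp).mp hcard
  have h3 : Module.finrank (ZMod p) N < Module.finrank (ZMod p) V := Submodule.finrank_lt hN1
  have h4 : 0 < Module.finrank (ZMod p) N := by
    rw [Module.finrank_pos_iff]
    exact Submodule.nontrivial_iff_ne_bot.mpr hN0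
  have h5 : Module.finrank (ZMod p) N = 1 := by omega
  obtain ⟨v, hv0, hv⟩ := finrank_eq_one_iff'.mp h5
  refine ⟨v, fun h => hv0 (Subtype.ext h), v.2, fun Q hQ => ?_⟩
  obtain ⟨c, hc⟩ := hv ⟨Q, hQ⟩
  exact ⟨c, by rw [← Submodule.coe_smul, hc]⟩

section

variable {E : Affine ℚ}

local notation "Qb" => AlgebraicClosure ℚ

theorem gal_xc_smul (σ : Qb ≃ₐ[ℚ] Qb) (P : (E⁄Qb).Point) : xc (σ • P) = σ (xc P) := by
  rcases P with _ | ⟨x, y, h⟩
  · show xc (Point.map (W' := E) σ.toAlgHom (0 : (E⁄Qb).Point)) = σ (xc (0 : (E⁄Qb).Point))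
    rw [map_zero]; simp
  · rfl

theorem gal_baseChange_Δ_ne_zero (hΔ : E.Δ ≠ 0) : (E⁄Qb).Δ ≠ 0 := by
  show (E.map (algebraMap ℚ Qb)).Δ ≠ 0
  rw [WeierstrassCurve.map_Δ]
  exact fun h => hΔ ((algebraMap ℚ Qb).injective (by rw [h, map_zero]))

theorem gal_dupN_baseChange (x : ℚ) :
    dupN (E⁄Qb) (algebraMap ℚ Qb x) = algebraMap ℚ Qb (dupN E x) := by
  show dupN (E.map (algebraMap ℚ Qb)) (algebraMap ℚ Qb x) = algebraMap ℚ Qb (dupN E x)
  simp [dupN]

theorem gal_dupD_baseChange (x : ℚ) :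
    dupD (E⁄Qb) (algebraMap ℚ Qb x) = algebraMap ℚ Qb (dupD E x) := by
  show dupD (E.map (algebraMap ℚ Qb)) (algebraMap ℚ Qb x) = algebraMap ℚ Qb (dupD E x)
  simp [dupD]

theorem gal_isFix5_baseChange {u v : ℚ}
    (h : IsFix5 (E⁄Qb) (algebraMap ℚ Qb u) (algebraMap ℚ Qb v)) : IsFix5 E u v := by
  have h' : IsFix5 (E.map (algebraMap ℚ Qb)) (algebraMap ℚ Qb u) (algebraMap ℚ Qb v) := h
  obtain ⟨h1, h2⟩ := h'
  simp only [WeierstrassCurve.map_b₂, WeierstrassCurve.map_b₄, WeierstrassCurve.map_b₆,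
    WeierstrassCurve.map_b₈] at h1 h2
  constructor
  · apply (algebraMap ℚ Qb).injective
    simpa using h1
  · apply (algebraMap ℚ Qb).injective
    simpa using h2

theorem gal_zmod3_cases (c : ZMod 3) : c = 0 ∨ c = 1 ∨ c = -1 := by
  revert c; decide

theorem gal_zmod5_cases (c : ZMod 5) : c = 0 ∨ c = 1 ∨ c = -1 ∨ c = 2 ∨ c = -2 := by
  revert c; decide

theorem gal_smul_ne_zero {n : ℕ} (σ : Qb ≃ₐ[ℚ] Qb)
    {P : Submodule.torsionBy ℤ (E⁄Qb).Point n} (hP : P ≠ 0) : σ • P ≠ 0 := by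
  intro h
  apply hP
  have : σ⁻¹ • (σ • P) = σ⁻¹ • (0 : Submodule.torsionBy ℤ (E⁄Qb).Point n) := by rw [h]
  rwa [inv_smul_smul, smul_zero] at this

theorem gal_coe_smul {n : ℕ} (σ : Qb ≃ₐ[ℚ] Qb) (P : Submodule.torsionBy ℤ (E⁄Qb).Point n) :
    ((σ • P : Submodule.torsionBy ℤ (E⁄Qb).Point n) : (E⁄Qb).Point) = σ • (P : (E⁄Qb).Point) :=
  rfl

end

local notation "Qb" => AlgebraicClosure ℚ

/-- (G3) if the mod 3 representation is not irreducible, `ψ₃` has a rational root. -/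
theorem exists_rat_root_of_not_irr3 (E : Affine ℚ) (hΔ : E.Δ ≠ 0)
    (h : ¬ Affine.Point.GaloisRepIsIrreducible (K := AlgebraicClosure ℚ) ℚ E 3) :
    ∃ x₀ : ℚ, dupN E x₀ = x₀ * dupD E x₀ := by
  have hΔ' : (E⁄Qb).Δ ≠ 0 := gal_baseChange_Δ_ne_zero hΔ
  haveI : Fact (Nat.Prime 3) := ⟨by norm_num⟩
  haveI := tors3_finite (W := E⁄Qb) hΔ'
  have hnt := tors3_nontrivial (W := E⁄Qb) hΔ'
  have hcard := tors3_card_le (W := E⁄Qb) hΔ'
  unfold Affine.Point.GaloisRepIsIrreducible at h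
  rw [not_and] at h
  have h' := h hnt
  push Not at h'
  obtain ⟨N, hstab, hN0, hN1⟩ := h'
  obtain ⟨P, hP0, hPN, hgen⟩ := gal_exists_generator (p := 3) (by simp; exact hcard) N hN0 hN1
  have hP0' : (P : (E⁄Qb).Point) ≠ 0 := fun h0 => hP0 (Subtype.ext h0)
  have hfix : ∀ σ : Qb ≃ₐ[ℚ] Qb, σ (xc (P : (E⁄Qb).Point)) = xc (P : (E⁄Qb).Point) := by
    intro σ
    obtain ⟨c, hc⟩ := hgen (σ • P) (hstab σ P hPN)
    rw [← gal_xc_smul, ← gal_coe_smul, hc]
    rcases gal_zmod3_cases c with rfl | rfl | rfl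
    · exfalso
      rw [zero_smul] at hc
      exact gal_smul_ne_zero σ hP0 hc
    · rw [one_smul]
    · rw [neg_one_smul, Submodule.coe_neg, xc_neg]
  obtain ⟨x₀, hx₀⟩ := rat_of_fixed _ hfix
  refine ⟨x₀, ?_⟩
  have h3 : (3 : ℤ) • (P : (E⁄Qb).Point) = 0 := by
    have := P.2
    rw [Submodule.mem_torsionBy_iff] at this
    exact_mod_cast this
  have key := (three_tors_iff hΔ' (P : (E⁄Qb).Point) hP0').mp h3
  rw [← hx₀, gal_dupN_baseChange, gal_dupD_baseChange, ← map_mul] at key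
  exact (algebraMap ℚ Qb).injective key

/-- (G5) if the mod 5 representation is not irreducible, the add-sub map has a rational
fixed point off the diagonal. -/
theorem exists_rat_fix_of_not_irr5 (E : Affine ℚ) (hΔ : E.Δ ≠ 0)
    (h : ¬ Affine.Point.GaloisRepIsIrreducible (K := AlgebraicClosure ℚ) ℚ E 5) :
    ∃ u v : ℚ, u ^ 2 - 4 * v ≠ 0 ∧ IsFix5 E u v := by
  have hΔ' : (E⁄Qb).Δ ≠ 0 := gal_baseChange_Δ_ne_zero hΔ
  haveI : Fact (Nat.Prime 5) := ⟨by norm_num⟩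
  haveI := tors5_finite (W := E⁄Qb) hΔ'
  have hnt := tors5_nontrivial (W := E⁄Qb) hΔ'
  have hcard := tors5_card_le (W := E⁄Qb) hΔ'
  unfold Affine.Point.GaloisRepIsIrreducible at h
  rw [not_and] at h
  have h' := h hnt
  push Not at h'
  obtain ⟨N, hstab, hN0, hN1⟩ := h'
  obtain ⟨P, hP0, hPN, hgen⟩ := gal_exists_generator (p := 5) (by simp; exact hcard) N hN0 hN1
  have hP0' : (P : (E⁄Qb).Point) ≠ 0 := fun h0 => hP0 (Subtype.ext h0)
  have h5 : (5 : ℤ) • (P : (E⁄Qb).Point) = 0 := by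
    have := P.2
    rw [Submodule.mem_torsionBy_iff] at this
    exact_mod_cast this
  -- `4 P = - P`
  have h4 : (P + P) + (P + P) = -P := by
    have e0 : (5 : ℕ) • P = 0 := by
      rw [← Nat.cast_smul_eq_nsmul (ZMod 5), ZMod.natCast_self, zero_smul]
    rw [eq_neg_iff_add_eq_zero, ← e0]
    abel
  obtain ⟨hPP, hne, hfix5⟩ := five_tors_fix (P : (E⁄Qb).Point) hP0' h5
  set x1 : Qb := xc (P : (E⁄Qb).Point) with hx1
  set x2 : Qb := xc ((P : (E⁄Qb).Point) + (P : (E⁄Qb).Point)) with hx2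
  have hperm : ∀ σ : Qb ≃ₐ[ℚ] Qb, (σ x1 = x1 ∧ σ x2 = x2) ∨ (σ x1 = x2 ∧ σ x2 = x1) := by
    intro σ
    obtain ⟨c, hc⟩ := hgen (σ • P) (hstab σ P hPN)
    have hc2 : σ • (P + P) = c • (P + P) := by
      rw [smul_add, hc, smul_add]
    have e1 : σ x1 = xc ((σ • P : Submodule.torsionBy ℤ (E⁄Qb).Point 5) : (E⁄Qb).Point) := by
      rw [gal_coe_smul, gal_xc_smul]
    have e2 : σ x2 = xc ((σ • (P + P) : Submodule.torsionBy ℤ (E⁄Qb).Point 5) : (E⁄Qb).Point) := by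
      rw [gal_coe_smul, gal_xc_smul]; rfl
    rw [e1, e2, hc, hc2]
    rcases gal_zmod5_cases c with rfl | rfl | rfl | rfl | rfl
    · exfalso
      rw [zero_smul] at hc
      exact gal_smul_ne_zero σ hP0 hc
    · left
      rw [one_smul, one_smul]
      exact ⟨rfl, rfl⟩
    · left
      rw [neg_one_smul, neg_one_smul, Submodule.coe_neg, Submodule.coe_neg, xc_neg, xc_neg]
      exact ⟨rfl, rfl⟩
    · right
      rw [two_smul, two_smul, h4, Submodule.coe_neg, xc_neg]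
      exact ⟨rfl, rfl⟩
    · right
      rw [neg_smul, neg_smul, two_smul, two_smul, h4, Submodule.coe_neg, Submodule.coe_neg,
        Submodule.coe_neg, xc_neg, xc_neg, xc_neg]
      exact ⟨rfl, rfl⟩
  have hu : ∀ σ : Qb ≃ₐ[ℚ] Qb, σ (x1 + x2) = x1 + x2 := by
    intro σ
    rcases hperm σ with ⟨a, b⟩ | ⟨a, b⟩
    · rw [map_add, a, b]
    · rw [map_add, a, b, add_comm]
  have hv : ∀ σ : Qb ≃ₐ[ℚ] Qb, σ (x1 * x2) = x1 * x2 := by
    intro σ
    rcases hperm σ with ⟨a, b⟩ | ⟨a, b⟩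
    · rw [map_mul, a, b]
    · rw [map_mul, a, b, mul_comm]
  obtain ⟨u, hu'⟩ := rat_of_fixed _ hu
  obtain ⟨v, hv'⟩ := rat_of_fixed _ hv
  refine ⟨u, v, ?_, ?_⟩
  · intro h0
    have : (algebraMap ℚ Qb) (u ^ 2 - 4 * v) = 0 := by rw [h0, map_zero]
    rw [map_sub, map_pow, map_mul, hu', hv'] at this
    have h2 : (x1 - x2) ^ 2 = 0 := by
      have e4 : (algebraMap ℚ Qb) 4 = 4 := by simp
      rw [e4] at this
      linear_combination this
    exact hne (sub_eq_zero.mp (pow_eq_zero_iff (by norm_num) |>.mp h2))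
  · apply gal_isFix5_baseChange
    rw [hu', hv']
    exact hfix5

end Fermat.Agent.S51
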