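import Mathlib

/-!
# S51, piece (A3): the `X₀(3)`-parametrisation, pure algebra

For a Weierstrass curve `W` over a field of characteristic zero with `Δ ≠ 0` and a root `x`
of the 3-division polynomial `3x⁴ + b₂x³ + 3b₄x² + 3b₆x + b₈`, there is `h ≠ 0` with
`c₄³ h = Δ (h+27)(h+3)³`.
-/

namespace Fermat.Agent.S51

/-- The 3-division polynomial in the variable `X = 12 x + b₂`. -/
theorem a3_quartic {F : Type*} [CommRing F] (W : WeierstrassCurve F) (x : F) :
    (12*x + W.b₂)^4 - 6*W.c₄*(12*x + W.b₂)^2 - 8*W.c₆*(12*x + W.b₂) - 3*W.c₄^2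
      = 6912 * (3*x^4 + W.b₂*x^3 + 3*W.b₄*x^2 + 3*W.b₆*x + W.b₈) := by
  have hb := W.b_relation
  simp only [WeierstrassCurve.c₄, WeierstrassCurve.c₆]
  linear_combination (-1728 : F) * hb

/-- The nonvanishing of `h` is automatic from the relation. -/
theorem a3_h_ne_zero {F : Type*} [Field F] [CharZero F] {c4 Δ h : F} (hΔ : Δ ≠ 0)
    (hh : c4^3 * h = Δ * ((h+27)*(h+3)^3)) : h ≠ 0 := by
  rintro rfl
  have : Δ * 729 = 0 := by linear_combination -hh
  rcases mul_eq_zero.mp this with h | h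
  · exact hΔ h
  · norm_num at h

/-- Core algebra: from `X⁴ - 6c₄X² - 8c₆X - 3c₄² = 0` and `1728 Δ = c₄³ - c₆²`, `Δ ≠ 0`. -/
theorem a3_core {F : Type*} [Field F] [CharZero F] (X c4 c6 D : F) (hD : D ≠ 0)
    (hc : 1728 * D = c4^3 - c6^2)
    (hq : X^4 - 6*c4*X^2 - 8*c6*X - 3*c4^2 = 0) :
    ∃ h : F, h ≠ 0 ∧ c4^3 * h = D * ((h+27)*(h+3)^3) := by
  suffices H : ∃ h : F, c4^3 * h = D * ((h+27)*(h+3)^3) by
    obtain ⟨h, hh⟩ := H
    exact ⟨h, a3_h_ne_zero hD hh, hh⟩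
  by_cases h0 : c4 = 0
  · refine ⟨-3, ?_⟩
    rw [h0]; ring
  · have hden : X^2 - c4 ≠ 0 := by
      intro hXc
      have h1 : c6 * X = - c4^2 := by
        have : 8 * (c6 * X) = 8 * (- c4^2) := by
          linear_combination -hq + (X^2 + c4 - 6*c4) * hXc
        exact mul_left_cancel₀ (by norm_num) this
      have h2 : c4 * (c4^3 - c6^2) = 0 := by
        linear_combination (c6^2) * hXc - (c6*X - c4^2) * h1
      rcases mul_eq_zero.mp h2 with h | h
      · exact h0 h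
      · apply hD
        have : (1728 : F) * D = 0 := by rw [hc, h]
        rcases mul_eq_zero.mp this with h' | h'
        · norm_num at h'
        · exact h'
    refine ⟨-3 * (X^2 - 9*c4) / (X^2 - c4), ?_⟩
    have e1 : -3 * (X^2 - 9*c4) / (X^2 - c4) + 27 = 24 * X^2 / (X^2 - c4) := by
      field_simp; ring
    have e2 : -3 * (X^2 - 9*c4) / (X^2 - c4) + 3 = 24 * c4 / (X^2 - c4) := by
      field_simp; ring
    rw [e1, e2]
    have key : 64 * c6^2 * X^2 = (X^4 - 6*c4*X^2 - 3*c4^2)^2 := by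
      have : 8 * c6 * X = X^4 - 6*c4*X^2 - 3*c4^2 := by linear_combination -hq
      calc 64 * c6^2 * X^2 = (8 * c6 * X)^2 := by ring
        _ = _ := by rw [this]
    have main : c4^3 * (-3 * (X^2 - 9*c4)) * (X^2 - c4)^3 = D * (24 * X^2 * (24 * c4)^3) := by
      linear_combination (-192 * X^2 * c4^3) * hc + (3 * c4^3) * key
    have e3 : c4^3 * (-3 * (X^2 - 9*c4) / (X^2 - c4))
        = c4^3 * (-3 * (X^2 - 9*c4)) * (X^2 - c4)^3 / (X^2 - c4)^4 := by
      field_simp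
    have e4 : D * (24 * X^2 / (X^2 - c4) * (24 * c4 / (X^2 - c4))^3)
        = D * (24 * X^2 * (24 * c4)^3) / (X^2 - c4)^4 := by
      field_simp
    rw [e3, e4, main]

theorem a3_exists_h {F : Type*} [Field F] [CharZero F] (W : WeierstrassCurve F) (hΔ : W.Δ ≠ 0)
    (x : F) (hx : 3*x^4 + W.b₂*x^3 + 3*W.b₄*x^2 + 3*W.b₆*x + W.b₈ = 0) :
    ∃ h : F, h ≠ 0 ∧ W.c₄^3 * h = W.Δ * ((h+27)*(h+3)^3) := by
  have hq := a3_quartic W x
  rw [hx, mul_zero] at hq
  exact a3_core (12*x + W.b₂) W.c₄ W.c₆ W.Δ hΔ W.c_relation hq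

end Fermat.Agent.S51
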