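import Mathlib

/-!
# S51, piece (A5): the `X₀(5)`-parametrisation, pure algebra

For a Weierstrass curve `W` over a field of characteristic zero with `Δ ≠ 0` and a fixed point
`(u, v)` of the add-sub map (`u = x(P) + x(2P)`, `v = x(P) x(2P)` for a point `P` of order 5),
`h = (b₂ u + 2 b₄ - 7 u² + 40 v) / (u² - 4 v)` satisfies `c₄³ h = Δ (h² + 10 h + 5)³`.
-/

namespace Fermat.Agent.S51

set_option maxHeartbeats 1600000 in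
/-- Core polynomial identity (cofactor computed by exact division). -/
theorem a5_core {F : Type*} [CommRing F] (b2 b4 b6 b8 u v : F)
    (hb : 4*b8 = b2*b6 - b4^2)
    (h1 : u*(u^2-4*v) = 2*u*v + b2*v + b4*u + b6)
    (h2 : v*(u^2-4*v) = v^2 - b4*v - b6*u - b8) :
    (b2^2 - 24*b4)^3 * ((b2*u + 2*b4 - 7*u^2 + 40*v) * (u^2 - 4*v)^5)
      = (-b2^2*b8 - 8*b4^3 - 27*b6^2 + 9*b2*b4*b6) *
        ((b2*u + 2*b4 - 7*u^2 + 40*v)^2 + 10*(b2*u + 2*b4 - 7*u^2 + 40*v)*(u^2 - 4*v)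
          + 5*(u^2 - 4*v)^2)^3 := by
  have e6 : b6 = u^3 - 6*u*v - b2*v - b4*u := by linear_combination -h1
  subst e6
  have e8 : b8 = 5*v^2 - b4*v - (u^3 - 6*u*v - b2*v - b4*u)*u - u^2*v := by
    linear_combination h2
  subst e8
  linear_combination
    (b2^7*u^7 + 20*b2^6*b4*u^6 - 17*b2^6*u^8 + 152*b2^6*u^6*v + 156*b2^5*b4^2*u^5 - 276*b2^5*b4*u^7 +
      2544*b2^5*b4*u^5*v + 48*b2^5*u^9 - 1560*b2^5*u^7*v + 8240*b2^5*u^5*v^2 + 1280*b2^5*u^3*v^3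
      - 1024*b2^5*u*v^4 + 640*b2^4*b4^3*u^4 - 1740*b2^4*b4^2*u^6 + 16320*b2^4*b4^2*u^4*v +
      528*b2^4*b4*u^8 - 20624*b2^4*b4*u^6*v + 116480*b2^4*b4*u^4*v^2 + 3584*b2^4*b4*u^2*v^3 -
      2048*b2^4*b4*v^4 + 452*b2^4*u^10 - 2656*b2^4*u^8*v - 34160*b2^4*u^6*v^2 +
      196096*b2^4*u^4*v^3 + 68608*b2^4*u^2*v^4 - 40960*b2^4*v^5 + 1520*b2^3*b4^4*u^3 -
      5600*b2^3*b4^3*u^5 + 53120*b2^3*b4^3*u^3*v + 2192*b2^3*b4^2*u^7 - 100864*b2^3*b4^2*u^5*v +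
      592256*b2^3*b4^2*u^3*v^2 + 3072*b2^3*b4^2*u*v^3 + 5424*b2^3*b4*u^9 - 40256*b2^3*b4*u^7*v -
      327552*b2^3*b4*u^5*v^2 + 2265600*b2^3*b4*u^3*v^3 + 131072*b2^3*b4*u*v^4 - 1808*b2^3*u^11 +
      48416*b2^3*u^9*v - 333504*b2^3*u^7*v^2 + 246272*b2^3*u^5*v^3 + 2333440*b2^3*u^3*v^4 +
      430080*b2^3*u*v^5 + 2112*b2^2*b4^5*u^2 - 9840*b2^2*b4^4*u^4 + 94080*b2^2*b4^4*u^2*v +
      4448*b2^2*b4^3*u^6 - 237056*b2^2*b4^3*u^4*v + 1429504*b2^2*b4^3*u^2*v^2 +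
      2048*b2^2*b4^3*v^3 + 21776*b2^2*b4^2*u^8 - 183488*b2^2*b4^2*u^6*v -
      1069440*b2^2*b4^2*u^4*v^2 + 8470528*b2^2*b4^2*u^2*v^3 + 180224*b2^2*b4^2*v^4 -
      13056*b2^2*b4*u^10 + 401088*b2^2*b4*u^8*v - 3120000*b2^2*b4*u^6*v^2 +
      4457472*b2^2*b4*u^4*v^3 + 15277056*b2^2*b4*u^2*v^4 + 2826240*b2^2*b4*v^5 - 4480*b2^2*u^12
      + 27456*b2^2*u^10*v + 607296*b2^2*u^8*v^2 - 6101248*b2^2*u^6*v^3 + 13128960*b2^2*u^4*v^4 +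
      8816640*b2^2*u^2*v^5 + 819200*b2^2*v^6 + 1600*b2*b4^6*u - 9024*b2*b4^5*u^3 +
      86784*b2*b4^5*u*v + 4480*b2*b4^4*u^5 - 272000*b2*b4^4*u^3*v + 1672960*b2*b4^4*u*v^2 +
      36352*b2*b4^3*u^7 - 328704*b2*b4^3*u^5*v - 1534464*b2*b4^3*u^3*v^2 +
      13494272*b2*b4^3*u*v^3 - 27648*b2*b4^2*u^9 + 951552*b2*b4^2*u^7*v -
      7796736*b2*b4^2*u^5*v^2 + 11750400*b2*b4^2*u^3*v^3 + 40098816*b2*b4^2*u*v^4 -
      33408*b2*b4*u^11 + 389376*b2*b4*u^9*v + 1299456*b2*b4*u^7*v^2 - 27721728*b2*b4*u^5*v^3 +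
      73866240*b2*b4*u^3*v^4 + 29306880*b2*b4*u*v^5 + 13824*b2*u^13 - 428544*b2*u^11*v +
      4492800*b2*u^9*v^2 - 18385920*b2*u^7*v^3 + 16312320*b2*u^5*v^4 + 40089600*b2*u^3*v^5 +
      8294400*b2*u*v^6 + 512*b4^7 - 3392*b4^6*u^2 + 32768*b4^6*v + 1792*b4^5*u^4 -
      122624*b4^5*u^2*v + 765952*b4^5*v^2 + 22208*b4^4*u^6 - 212736*b4^4*u^4*v -
      781056*b4^4*u^2*v^2 + 7733248*b4^4*v^3 - 22912*b4^3*u^8 + 802816*b4^3*u^6*v -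
      6789120*b4^3*u^4*v^2 + 11966464*b4^3*u^2*v^3 + 28516352*b4^3*v^4 - 34560*b4^2*u^10 +
      359424*b4^2*u^8*v + 2833920*b4^2*u^6*v^2 - 42522624*b4^2*u^4*v^3 + 120296448*b4^2*u^2*v^4
      + 13824*b4*u^12 - 732672*b4*u^10*v + 9662976*b4*u^8*v^2 - 46338048*b4*u^6*v^3 +
      55848960*b4*u^4*v^4 + 87920640*b4*u^2*v^5 + 27648*u^14 - 608256*u^12*v + 4727808*u^10*v^2
      - 13547520*u^8*v^3 - 967680*u^6*v^4 + 41472000*u^4*v^5 + 24883200*u^2*v^6) * hb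

/-- The nonvanishing of `h` is automatic from the relation. -/
theorem a5_h_ne_zero {F : Type*} [Field F] [CharZero F] {c4 Δ h : F} (hΔ : Δ ≠ 0)
    (hh : c4^3 * h = Δ * (h^2+10*h+5)^3) : h ≠ 0 := by
  rintro rfl
  have : Δ * 125 = 0 := by linear_combination -hh
  rcases mul_eq_zero.mp this with h | h
  · exact hΔ h
  · norm_num at h

theorem a5_exists_h {F : Type*} [Field F] [CharZero F] (W : WeierstrassCurve F) (hΔ : W.Δ ≠ 0)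
    (u v : F) (huv : u^2 - 4*v ≠ 0)
    (h1 : u*(u^2-4*v) = 2*u*v + W.b₂*v + W.b₄*u + W.b₆)
    (h2 : v*(u^2-4*v) = v^2 - W.b₄*v - W.b₆*u - W.b₈) :
    ∃ h : F, h ≠ 0 ∧ W.c₄^3 * h = W.Δ * (h^2+10*h+5)^3 := by
  have core := a5_core W.b₂ W.b₄ W.b₆ W.b₈ u v W.b_relation h1 h2
  have hc4 : W.c₄ = W.b₂^2 - 24*W.b₄ := rfl
  have hD : W.Δ = -W.b₂^2*W.b₈ - 8*W.b₄^3 - 27*W.b₆^2 + 9*W.b₂*W.b₄*W.b₆ := rfl
  rw [← hc4, ← hD] at core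
  set N : F := W.b₂*u + 2*W.b₄ - 7*u^2 + 40*v with hN
  set D : F := u^2 - 4*v with hDen
  suffices H : W.c₄^3 * (N / D) = W.Δ * ((N / D)^2+10*(N / D)+5)^3 from
    ⟨N / D, a5_h_ne_zero hΔ H, H⟩
  have e1 : W.c₄^3 * (N / D) = W.c₄^3 * (N * D^5) / D^6 := by
    field_simp
  have e2 : W.Δ * ((N / D)^2+10*(N / D)+5)^3 = W.Δ * (N^2 + 10*N*D + 5*D^2)^3 / D^6 := by
    field_simp
  rw [e1, e2, core]

end Fermat.Agent.S51
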