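import Fermat.Agent.S51.Defs
import Fermat.Agent.S51.A3
import Fermat.Agent.S51.A5

/-!
# S51: the Hauptmodul parametrisations of `X₀(3)` and `X₀(5)` (pure algebra over `ℚ`)
-/

set_option autoImplicit false

namespace Fermat.Agent.S51

open WeierstrassCurve

/-- (A3) a rational root of `ψ₃` gives a rational point on `X₀(3)`:
`h₃ = -3 (X² - 9 c₄) / (X² - c₄)` with `X = 12 x₀ + b₂` (and `h₃ = -3` if `c₄ = 0`). -/
theorem param3 (E : WeierstrassCurve ℚ) (hΔ : E.Δ ≠ 0) (x₀ : ℚ)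
    (hx : dupN E x₀ = x₀ * dupD E x₀) :
    ∃ h₃ : ℚ, h₃ ≠ 0 ∧ E.c₄ ^ 3 * h₃ = E.Δ * ((h₃ + 27) * (h₃ + 3) ^ 3) := by
  apply a3_exists_h E hΔ x₀
  simp only [dupN, dupD] at hx
  linear_combination -hx

/-- (A5) a rational off-diagonal fixed point of the add-sub map gives a rational point on
`X₀(5)`: `h₅ = (b₂ u + 2 b₄ - 7 u² + 40 v) / (u² - 4 v)`. -/
theorem param5 (E : WeierstrassCurve ℚ) (hΔ : E.Δ ≠ 0) (u v : ℚ) (huv : u ^ 2 - 4 * v ≠ 0)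
    (hfix : IsFix5 E u v) :
    ∃ h₅ : ℚ, h₅ ≠ 0 ∧ E.c₄ ^ 3 * h₅ = E.Δ * (h₅ ^ 2 + 10 * h₅ + 5) ^ 3 :=
  a5_exists_h E hΔ u v huv hfix.1 hfix.2

end Fermat.Agent.S51
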