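import Fermat.Agent.S51.Defs

/-!
# S51: the four non-cuspidal rational points of `X₀(15)` are not semistable
-/

set_option autoImplicit false

namespace Fermat.Agent.S51

open WeierstrassCurve

/-- The `5`-adic core of (P6): if `A * c ^ 3 = B * d` with `5 ∤ A`, `5 ∣ B`, `125 ∤ B`, then `5`
divides both `c` and `d`. -/
theorem p6_five_dvd {A B c d : ℤ} (h : A * c ^ 3 = B * d) (hA : ¬ (5 : ℤ) ∣ A)
    (hB5 : (5 : ℤ) ∣ B) (hB : ¬ (125 : ℤ) ∣ B) : (5 : ℤ) ∣ c ∧ (5 : ℤ) ∣ d := by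
  have h5 : Prime (5 : ℤ) := Int.prime_iff_natAbs_prime.mpr (by norm_num)
  have hc : (5 : ℤ) ∣ c := by
    have h1 : (5 : ℤ) ∣ A * c ^ 3 := by rw [h]; exact Dvd.dvd.mul_right hB5 d
    rcases h5.dvd_or_dvd h1 with h2 | h2
    · exact absurd h2 hA
    · exact h5.dvd_of_dvd_pow h2
  refine ⟨hc, ?_⟩
  by_contra hd
  obtain ⟨c', rfl⟩ := hc
  obtain ⟨B₁, rfl⟩ := hB5
  have e1 : 25 * (A * c' ^ 3) = B₁ * d := by
    have : (5 : ℤ) * (25 * (A * c' ^ 3)) = 5 * (B₁ * d) := by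
      have := h
      ring_nf at this ⊢
      linarith
    exact mul_left_cancel₀ (by norm_num) this
  have hB₁ : (5 : ℤ) ∣ B₁ := by
    have h1 : (5 : ℤ) ∣ B₁ * d := by
      rw [← e1]; exact Dvd.dvd.mul_right (by norm_num) _
    rcases h5.dvd_or_dvd h1 with h2 | h2
    · exact h2
    · exact absurd h2 hd
  obtain ⟨B₂, rfl⟩ := hB₁
  have e2 : 5 * (A * c' ^ 3) = B₂ * d := by
    have : (5 : ℤ) * (5 * (A * c' ^ 3)) = 5 * (B₂ * d) := by
      have := e1
      ring_nf at this ⊢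
      linarith
    exact mul_left_cancel₀ (by norm_num) this
  have hB₂ : (5 : ℤ) ∣ B₂ := by
    have h1 : (5 : ℤ) ∣ B₂ * d := by
      rw [← e2]; exact Dvd.dvd.mul_right (dvd_refl _) _
    rcases h5.dvd_or_dvd h1 with h2 | h2
    · exact h2
    · exact absurd h2 hd
  obtain ⟨B₃, rfl⟩ := hB₂
  exact hB ⟨B₃, by ring⟩

/-- (P6) in integral form. -/
theorem p6_not_semistable_of_eq (W : WeierstrassCurve ℤ) (hW : W.IsSemistableModel)
    {A B : ℤ} (h : A * W.c₄ ^ 3 = B * W.Δ) (hA : ¬ (5 : ℤ) ∣ A)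
    (hB5 : (5 : ℤ) ∣ B) (hB : ¬ (125 : ℤ) ∣ B) : False := by
  obtain ⟨hc, hd⟩ := p6_five_dvd h hA hB5 hB
  exact hW 5 (by norm_num) (by exact_mod_cast hd) (by exact_mod_cast hc)

/-- (P6) a semistable integral model cannot have `j`-invariant one of the four values. -/
theorem not_semistable_of_j (W : WeierstrassCurve ℤ) (hΔ : W.Δ ≠ 0) (hW : W.IsSemistableModel)
    (j : ℚ) (hj : (W.c₄ : ℚ) ^ 3 = j * (W.Δ : ℚ))
    (hmem : j ∈ ({-25/2, -349938025/8, -121945/32, 46969655/32768} : Set ℚ)) : False := by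
  simp only [Set.mem_insert_iff, Set.mem_singleton_iff] at hmem
  rcases hmem with rfl | rfl | rfl | rfl
  · have h : (2 : ℤ) * W.c₄ ^ 3 = (-25) * W.Δ := by
      have : (2 : ℚ) * (W.c₄ : ℚ) ^ 3 = (-25) * (W.Δ : ℚ) := by rw [hj]; ring
      exact_mod_cast this
    exact p6_not_semistable_of_eq W hW h (by norm_num) (by norm_num) (by norm_num)
  · have h : (8 : ℤ) * W.c₄ ^ 3 = (-349938025) * W.Δ := by
      have : (8 : ℚ) * (W.c₄ : ℚ) ^ 3 = (-349938025) * (W.Δ : ℚ) := by rw [hj]; ring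
      exact_mod_cast this
    exact p6_not_semistable_of_eq W hW h (by norm_num) (by norm_num) (by norm_num)
  · have h : (32 : ℤ) * W.c₄ ^ 3 = (-121945) * W.Δ := by
      have : (32 : ℚ) * (W.c₄ : ℚ) ^ 3 = (-121945) * (W.Δ : ℚ) := by rw [hj]; ring
      exact_mod_cast this
    exact p6_not_semistable_of_eq W hW h (by norm_num) (by norm_num) (by norm_num)
  · have h : (32768 : ℤ) * W.c₄ ^ 3 = 46969655 * W.Δ := by
      have : (32768 : ℚ) * (W.c₄ : ℚ) ^ 3 = 46969655 * (W.Δ : ℚ) := by rw [hj]; ring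
      exact_mod_cast this
    exact p6_not_semistable_of_eq W hW h (by norm_num) (by norm_num) (by norm_num)

end Fermat.Agent.S51
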