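import Mathlib

/-!
# S51: transfer between the plane model `H` of `X₀(15)` and the Weierstrass model
`Y² = X (X + 9) (X - 16)`

With `P`, `Q` the two explicit polynomials below, `x = Q / P` and
`w = 2 (1 + 9x) s / (729 x²) + 5 x` satisfy `w² = x (4x + 1) (9x - 4)` on
`H : (s + 27) (s + 3)³ t = (t² + 10 t + 5)³ s`.
All certificates were computed by exact rational arithmetic.
-/

set_option autoImplicit false
set_option maxHeartbeats 1600000

namespace Fermat.Agent.S51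

open Polynomial

/-- denominator of the coordinate `x` on `X₀(15)` -/
def x015t_P (s t : ℚ) : ℚ :=
  27 - 1053 * t - 378 * t ^ 2 - 27 * t ^ 3 + 171 * s - 36 * s * t - 9 * s * t ^ 2 + 9 * s ^ 2

/-- numerator of the coordinate `x` on `X₀(15)` -/
def x015t_Q (s t : ℚ) : ℚ :=
  27 + 27 * t - 14 * s - 34 * s * t - 4 * s * t ^ 2 - s ^ 2 - s ^ 2 * t

theorem x015t_R1 (s t : ℚ) (H : (s + 27) * (s + 3) ^ 3 * t = (t ^ 2 + 10 * t + 5) ^ 3 * s) :
    (x015t_P s t + 9 * x015t_Q s t) * x015t_P s t ^ 5 * s ^ 2 +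
      3645 * x015t_Q s t ^ 3 * x015t_P s t ^ 3 * s +
      729 ^ 2 * (x015t_P s t - x015t_Q s t) * x015t_Q s t ^ 5 = 0 := by
  unfold x015t_P x015t_Q
  linear_combination (-531441 * s ^ 10 - 59521392 * s ^ 9 - 531441 * s ^ 8 * t ^ 5 - 5314410 * s ^ 8 * t ^ 4 - 29229255 * s ^ 8 * t ^ 3 - 44109603 * s ^ 8 * t ^ 2 + 142426188 * s ^ 8 * t - 2603529459 * s ^ 8 - 10628820 * s ^ 7 * t ^ 6 - 168998238 * s ^ 7 * t ^ 5 - 1044281565 * s ^ 7 * t ^ 4 - 3924691785 * s ^ 7 * t ^ 3 - 4972693437 * s ^ 7 * t ^ 2 + 12513841227 * s ^ 7 * t - 55736469198 * s ^ 7 - 89282088 * s ^ 6 * t ^ 7 - 1938165327 * s ^ 6 * t ^ 6 - 15525517374 * s ^ 6 * t ^ 5 - 64745457030 * s ^ 6 * t ^ 4 - 183604893885 * s ^ 6 * t ^ 3 - 210326278806 * s ^ 6 * t ^ 2 + 416177292951 * s ^ 6 * t - 580222500831 * s ^ 6 - 406552365 * s ^ 5 * t ^ 8 - 11168232615 * s ^ 5 * t ^ 7 - 114642452520 * s ^ 5 * t ^ 6 - 559471855545 * s ^ 5 * t ^ 5 - 1552145185035 * s ^ 5 * t ^ 4 - 3515508787050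 * s ^ 5 * t ^ 3 - 4183514712261 * s ^ 5 * t ^ 2 + 6238078904286 * s ^ 5 * t - 2193230966391 * s ^ 5 - 1076168025 * s ^ 4 * t ^ 9 - 35800522965 * s ^ 4 * t ^ 8 - 457314014997 * s ^ 4 * t ^ 7 - 2765880964413 * s ^ 4 * t ^ 6 - 7854548645079 * s ^ 4 * t ^ 5 - 10454183172990 * s ^ 4 * t ^ 4 - 20586233383830 * s ^ 4 * t ^ 3 - 40378828721490 * s ^ 4 * t ^ 2 + 36624221971335 * s ^ 4 * t + 2953779901578 * s ^ 4 - 1635775398 * s ^ 3 * t ^ 10 - 64211358825 * s ^ 3 * t ^ 9 - 998038226385 * s ^ 3 * t ^ 8 - 7637090959494 * s ^ 3 * t ^ 7 - 27928253419776 * s ^ 3 * t ^ 6 - 28912330159650 * s ^ 3 * t ^ 5 + 72549867405375 * s ^ 3 * t ^ 4 + 90749160109755 * s ^ 3 * t ^ 3 - 167185414627173 * s ^ 3 * t ^ 2 + 11885113574658 * s ^ 3 * t + 8829212501961 * s ^ 3 - 1291401630 * s ^ 2 * t ^ 11 - 59146194654 * s ^ 2 * t ^ 10 - 1107376897725 * s ^ 2 * t ^ 9 - 10790306319465 * s ^ 2 * t ^ 8 - 56719650991230 * s ^ 2 * t ^ 7 - 140599415363805 * s ^ 2 * t ^ 6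 - 27242633945502 * s ^ 2 * t ^ 5 + 532780656472800 * s ^ 2 * t ^ 4 + 671959530043605 * s ^ 2 * t ^ 3 - 121376772961092 * s ^ 2 * t ^ 2 - 148759911403938 * s ^ 2 * t - 27717482324853 * s ^ 2 - 387420489 * s * t ^ 12 - 20920706406 * s * t ^ 11 - 476527201470 * s * t ^ 10 - 5968212633045 * s * t ^ 9 - 44892349162875 * s * t ^ 8 - 207957632982975 * s * t ^ 7 - 585322623190980 * s * t ^ 6 - 948490202159091 * s * t ^ 5 - 758712663042930 * s * t ^ 4 - 82470199493430 * s * t ^ 3 + 295141190145579 * s * t ^ 2 + 179096356234431 * s * t + 28452548132649 * s - 282429536481 * t ^ 7 - 5366161193139 * t ^ 6 - 33891544377720 * t ^ 5 - 98850337768350 * t ^ 4 - 153924097382145 * t ^ 3 - 133024311682551 * t ^ 2 - 60439920806934 * t - 11297181459240) * H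

theorem x015t_res (s t : ℚ) (hs : s ≠ 0) (hP : x015t_P s t = 0) (hQ : x015t_Q s t = 0) :
    t ^ 8 + 36 * t ^ 7 + 548 * t ^ 6 + 4204 * t ^ 5 + 15462 * t ^ 4 + 21308 * t ^ 3 - 1660 * t ^ 2 - 3660 * t + 625 = 0 := by
  unfold x015t_P at hP
  unfold x015t_Q at hQ
  have h : s * (t ^ 8 + 36 * t ^ 7 + 548 * t ^ 6 + 4204 * t ^ 5 + 15462 * t ^ 4 + 21308 * t ^ 3 - 1660 * t ^ 2 - 3660 * t + 625) = 0 := by
    linear_combination ((1 / 9) * s * t ^ 5 + (16 / 9) * s * t ^ 4 + (68 / 9) * s * t ^ 3 + (82 / 9) * s * t ^ 2 + (19 / 9) * s * t - (10 / 9) * s - t ^ 4 - 10 * t ^ 3 - 28 * t ^ 2 - 14 * t + 5) * hP + (s * t ^ 4 + 15 * s * t ^ 3 + 53 * s * t ^ 2 + 29 * s * t - 10 * s - t ^ 6 - 23 * t ^ 5 - 184 * t ^ 4 - 611 * t ^ 3 - 662 * t ^ 2 + 214 * t - 5) * hQ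
  rcases mul_eq_zero.mp h with h | h
  · exact absurd h hs
  · exact h

theorem x015t_no_root (t : ℚ) (h : t ^ 8 + 36 * t ^ 7 + 548 * t ^ 6 + 4204 * t ^ 5 + 15462 * t ^ 4 + 21308 * t ^ 3 - 1660 * t ^ 2 - 3660 * t + 625 = 0) : False := by
  have hint : IsIntegral ℤ t := by
    refine ⟨X ^ 8 + 36 * X ^ 7 + 548 * X ^ 6 + 4204 * X ^ 5 + 15462 * X ^ 4 + 21308 * X ^ 3 - 1660 * X ^ 2 - 3660 * X + 625, ?_, ?_⟩
    · monicity!
    · simp only [eval₂_add, eval₂_sub, eval₂_mul, eval₂_pow, eval₂_X, eval₂_ofNat]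
      linear_combination h
  obtain ⟨n, rfl⟩ := IsIntegrallyClosed.isIntegral_iff.mp hint
  have h' : (n ^ 8 + 36 * n ^ 7 + 548 * n ^ 6 + 4204 * n ^ 5 + 15462 * n ^ 4 + 21308 * n ^ 3 - 1660 * n ^ 2 - 3660 * n + 625 : ℤ) = 0 := by
    have := h
    simp only [algebraMap_int_eq, eq_intCast] at this
    exact_mod_cast this
  have h7 := congrArg (Int.cast : ℤ → ZMod 7) h'
  push_cast at h7
  generalize (n : ZMod 7) = m at h7
  revert m
  decide

theorem x015_transfer
    (hE : ∀ X Y : ℚ, Y ^ 2 = X * (X + 9) * (X - 16) →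
      X = 0 ∨ X = -9 ∨ X = 16 ∨ X = -4 ∨ X = 36)
    (s t : ℚ) (hs : s ≠ 0) (ht : t ≠ 0)
    (H : (s + 27) * (s + 3) ^ 3 * t = (t ^ 2 + 10 * t + 5) ^ 3 * s) :
    (s = -2 ∧ t = -10) ∨ (s = -729/2 ∧ t = -40) ∨ (s = -32 ∧ t = -25/2) ∨
      (s = -729/32 ∧ t = -25/8) := by
  have hR1 := x015t_R1 s t H
  by_cases hP : x015t_P s t = 0
  · exfalso
    rw [hP] at hR1
    have hQ : x015t_Q s t = 0 := by
      have : x015t_Q s t ^ 6 = 0 := by linear_combination (-1 / 729 ^ 2 : ℚ) * hR1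
      exact (pow_eq_zero_iff (by norm_num)).mp this
    exact x015t_no_root t (x015t_res s t hs hP hQ)
  by_cases hQ : x015t_Q s t = 0
  · exfalso
    rw [hQ] at hR1
    have : x015t_P s t ^ 6 * s ^ 2 = 0 := by linear_combination hR1
    rcases mul_eq_zero.mp this with h | h
    · exact hP ((pow_eq_zero_iff (by norm_num)).mp h)
    · exact hs ((pow_eq_zero_iff (by norm_num)).mp h)
  obtain ⟨x, hx⟩ : ∃ x : ℚ, x = x015t_Q s t / x015t_P s t := ⟨_, rfl⟩
  have hx0 : x ≠ 0 := by rw [hx]; exact div_ne_zero hQ hP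
  have hQx : x015t_Q s t = x * x015t_P s t := by rw [hx]; field_simp
  have h1 : (1 + 9 * x) * s ^ 2 + 3645 * x ^ 3 * s + 729 ^ 2 * (1 - x) * x ^ 5 = 0 := by
    have hP6 : x015t_P s t ^ 6 ≠ 0 := pow_ne_zero _ hP
    have : x015t_P s t ^ 6 *
        ((1 + 9 * x) * s ^ 2 + 3645 * x ^ 3 * s + 729 ^ 2 * (1 - x) * x ^ 5) = 0 := by
      rw [hQx] at hR1
      linear_combination hR1
    rcases mul_eq_zero.mp this with h | h
    · exact absurd h hP6
    · exact h
  have hw : (36 * (2 * (1 + 9 * x) * s / (729 * x ^ 2) + 5 * x)) ^ 2 =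
      (36 * x) * ((36 * x) + 9) * ((36 * x) - 16) := by
    field_simp
    linear_combination (4 * 36 * (1 + 9 * x) : ℚ) * h1
  unfold x015t_P x015t_Q at hQx
  rcases hE _ _ hw with h | h | h | h | h
  · exfalso
    apply hx0
    linarith
  · -- X = -9, x = -1/4
    have hx0' : x = (-1 / 4) := by linarith
    have hs0 : s = (-729 / 32) := by
      rw [hx0'] at h1
      have : (s - (-729 / 32)) ^ 2 = 0 := by linear_combination ((-4 / 5) : ℚ) * h1
      have := (pow_eq_zero_iff (by norm_num)).mp this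
      linarith
    rw [hx0'] at hQx
    subst hs0
    have ht0 : t = (-25 / 8) := by
      linear_combination (-(7370931957661696 / 137042951290965219123) * t + (5866110779392000 / 10541765483920401471)) * H + (-(921366494707712 / 5075664862628341449) * t ^ 4 - (8214836132184064 / 1691888287542780483) * t ^ 3 - (209704165461032960 / 5075664862628341449) * t ^ 2 - (2115261761400832 / 21237091475432391) * t + (21853340911051264 / 390435758663718573)) * hQx
    subst ht0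
    right; right; right; exact ⟨rfl, rfl⟩
  · -- X = 16, x = 4/9
    have hx0' : x = (4 / 9) := by linarith
    have hs0 : s = (-32) := by
      rw [hx0'] at h1
      have : (s - (-32)) ^ 2 = 0 := by linear_combination ((1 / 5) : ℚ) * h1
      have := (pow_eq_zero_iff (by norm_num)).mp this
      linarith
    rw [hx0'] at hQx
    subst hs0
    have ht0 : t = (-25 / 2) := by
      linear_combination ((5250447 / 2987006947559) * t - (7808535 / 5974013895118)) * H + (-(14001192 / 2987006947559) * t ^ 4 - (213607692 / 2987006947559) * t ^ 3 - (1052688390 / 2987006947559) * t ^ 2 - (1943751663 / 2987006947559) * t - (33575913631 / 5974013895118)) * hQx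
    subst ht0
    right; right; left; exact ⟨rfl, rfl⟩
  · -- X = -4, x = -1/9
    have hx0' : x = (-1 / 9) := by linarith
    have hs0 : s = (-2) := by
      rw [hx0'] at h1
      linear_combination ((-1 / 5) : ℚ) * h1
    rw [hx0'] at hQx
    subst hs0
    have ht0 : t = (-10) := by
      linear_combination ((13058 / 873731) * t - (10535 / 2621193)) * H + ((26116 / 2621193) * t ^ 4 + (165962 / 873731) * t ^ 3 + (2548360 / 2621193) * t ^ 2 + (1742734 / 2621193) * t + (1442284 / 2621193)) * hQx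
    subst ht0
    left; exact ⟨rfl, rfl⟩
  · -- X = 36, x = 1
    have hx0' : x = 1 := by linarith
    have hs0 : s = (-729 / 2) := by
      rw [hx0'] at h1
      have : s * (s - (-729 / 2)) = 0 := by linear_combination ((1 / 10) : ℚ) * h1
      rcases mul_eq_zero.mp this with h' | h'
      · exact absurd h' hs
      · linarith
    rw [hx0'] at hQx
    subst hs0
    have ht0 : t = (-40) := by
      linear_combination ((418833536 / 298771670468858504697) * t - (131297516800 / 896315011406575514091)) * H + (-(209416768 / 11065617424772537211) * t ^ 4 + (13189858016 / 33196852274317611633) * t ^ 3 - (606074119360 / 33196852274317611633) * t ^ 2 + (7608207364408 / 11065617424772537211) * t - (116987868631444 / 3688539141590845737)) * hQx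
    subst ht0
    right; left; exact ⟨rfl, rfl⟩

end Fermat.Agent.S51
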