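import Fermat.Agent.S51.X015Descent
import Fermat.Agent.S51.X015Transfer

/-!
# S51: rational points of `X₀(15)` (owner: helper4)

`x015_descent` (2-descent + 2-adic infinite descent on `Y² = X (X + 9) (X - 16)`) combined with
`x015_transfer` (helper7: the plane model `H` maps to the Weierstrass model).
-/

set_option autoImplicit false

namespace Fermat.Agent.S51

theorem x015_rational_points (h3 h5 : ℚ) (h3ne : h3 ≠ 0) (h5ne : h5 ≠ 0)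
    (H : (h3 + 27) * (h3 + 3) ^ 3 * h5 = (h5 ^ 2 + 10 * h5 + 5) ^ 3 * h3) :
    (h3 = -2 ∧ h5 = -10) ∨ (h3 = -729/2 ∧ h5 = -40) ∨ (h3 = -32 ∧ h5 = -25/2) ∨
      (h3 = -729/32 ∧ h5 = -25/8) :=
  x015_transfer x015_descent h3 h5 h3ne h5ne H

theorem x015_j (j h3 h5 : ℚ) (h3ne : h3 ≠ 0) (h5ne : h5 ≠ 0)
    (hj3 : j * h3 = (h3 + 27) * (h3 + 3) ^ 3) (hj5 : j * h5 = (h5 ^ 2 + 10 * h5 + 5) ^ 3) :
    j ∈ ({-25/2, -349938025/8, -121945/32, 46969655/32768} : Set ℚ) := by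
  have H : (h3 + 27) * (h3 + 3) ^ 3 * h5 = (h5 ^ 2 + 10 * h5 + 5) ^ 3 * h3 := by
    rw [← hj3, ← hj5]; ring
  have hj : j = (h3 + 27) * (h3 + 3) ^ 3 / h3 := by
    field_simp; linear_combination hj3
  rcases x015_rational_points h3 h5 h3ne h5ne H with ⟨rfl, -⟩ | ⟨rfl, -⟩ | ⟨rfl, -⟩ | ⟨rfl, -⟩ <;>
    · rw [hj]; norm_num
end Fermat.Agent.S51
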