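import Fermat.Agent.S51.XOnly

/-!
# S51: counting points with x-coordinate among the roots of a polynomial
-/

set_option autoImplicit false
set_option linter.unusedSectionVars false

namespace Fermat.Agent.S51

open WeierstrassCurve WeierstrassCurve.Affine Polynomial

variable {F : Type*} [Field F] [DecidableEq F] {W : Affine F}

/-- A set of points whose nonzero members have x-coordinate a root of `p ≠ 0` is finite, of
cardinality at most `1 + 2 deg p`. -/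
theorem count_finite_ncard_le (p : F[X]) (hp : p ≠ 0) (T : Set W.Point)
    (hT : ∀ P ∈ T, P ≠ 0 → p.IsRoot (xc P)) :
    T.Finite ∧ T.ncard ≤ 1 + 2 * p.natDegree := by
  classical
  let fib : F → Set W.Point := fun x => {P | P ≠ 0 ∧ xc P = x}
  have hfib : ∀ x, (fib x).Finite ∧ (fib x).ncard ≤ 2 := by
    intro x
    by_cases hne : (fib x).Nonempty
    · obtain ⟨P₀, hP₀, hx₀⟩ := hne
      have hsub : fib x ⊆ {P₀, -P₀} := by
        rintro Q ⟨hQ, hxQ⟩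
        rcases (xc_eq_iff hQ hP₀).mp (hxQ.trans hx₀.symm) with h | h
        · left; exact h
        · right; exact h
      have hfin : ({P₀, -P₀} : Set W.Point).Finite := Set.toFinite _
      refine ⟨hfin.subset hsub, (Set.ncard_le_ncard hsub hfin).trans ?_⟩
      exact (Set.ncard_insert_le _ _).trans (by simp)
    · rw [Set.not_nonempty_iff_eq_empty] at hne
      rw [hne]
      simp
  have hsub : T ⊆ insert 0 (⋃ x ∈ p.roots.toFinset, fib x) := by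
    intro P hP
    by_cases h0 : P = 0
    · left; exact h0
    · right
      simp only [Set.mem_iUnion]
      refine ⟨xc P, ?_, h0, rfl⟩
      rw [Multiset.mem_toFinset, mem_roots hp]
      exact hT P hP h0
  have hfinU : (⋃ x ∈ p.roots.toFinset, fib x).Finite :=
    Set.Finite.biUnion (Finset.finite_toSet _) (fun x _ => (hfib x).1)
  have hfin : (insert 0 (⋃ x ∈ p.roots.toFinset, fib x)).Finite := hfinU.insert 0
  refine ⟨hfin.subset hsub, (Set.ncard_le_ncard hsub hfin).trans ?_⟩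
  calc (insert 0 (⋃ x ∈ p.roots.toFinset, fib x)).ncard
      ≤ (⋃ x ∈ p.roots.toFinset, fib x).ncard + 1 := Set.ncard_insert_le _ _
    _ ≤ (∑ x ∈ p.roots.toFinset, (fib x).ncard) + 1 := by
        gcongr
        exact Finset.set_ncard_biUnion_le _ _
    _ ≤ (∑ _x ∈ p.roots.toFinset, 2) + 1 := by
        gcongr with x hx
        exact (hfib x).2
    _ = 2 * p.roots.toFinset.card + 1 := by simp [mul_comm]
    _ ≤ 1 + 2 * p.natDegree := by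
        have h1 : p.roots.toFinset.card ≤ Multiset.card p.roots := Multiset.toFinset_card_le _
        have h2 := p.card_roots'
        omega

/-- Over an algebraically closed field, every `x` is the x-coordinate of a point of a
nonsingular Weierstrass curve. -/
theorem count_exists_y [IsAlgClosed F] (hΔ : W.Δ ≠ 0) (x : F) :
    ∃ P : W.Point, P ≠ 0 ∧ xc P = x := by
  have hdeg : (X ^ 2 + C (W.a₁ * x + W.a₃) * X -
      C (x ^ 3 + W.a₂ * x ^ 2 + W.a₄ * x + W.a₆) : F[X]).degree ≠ 0 := by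
    have : (X ^ 2 + C (W.a₁ * x + W.a₃) * X -
      C (x ^ 3 + W.a₂ * x ^ 2 + W.a₄ * x + W.a₆) : F[X]).degree = 2 := by
      compute_degree!
    rw [this]
    norm_num
  obtain ⟨y, hy⟩ := IsAlgClosed.exists_root _ hdeg
  have heq : W.Equation x y := by
    rw [equation_iff]
    simp only [IsRoot.def, eval_sub, eval_add, eval_pow, eval_X, eval_mul, eval_C] at hy
    linear_combination hy
  have hns : W.Nonsingular x y := (W.equation_iff_nonsingular_of_Δ_ne_zero hΔ).mp heq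
  exact ⟨.some x y hns, Point.some_ne_zero _, rfl⟩

theorem count_exists_point [IsAlgClosed F] (hΔ : W.Δ ≠ 0) (p : F[X]) (hp : p.degree ≠ 0) :
    ∃ P : W.Point, P ≠ 0 ∧ p.IsRoot (xc P) := by
  obtain ⟨x, hx⟩ := IsAlgClosed.exists_root p hp
  obtain ⟨P, hP, hxP⟩ := count_exists_y hΔ x
  exact ⟨P, hP, by rw [hxP]; exact hx⟩

/-! ### The polynomials -/

/-- `ψ₃` up to sign, as a polynomial: `dupN - X * dupD`. -/
noncomputable def count_psi3 (W : WeierstrassCurve F) : F[X] :=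
  C (-3) * X ^ 4 + C (-W.b₂) * X ^ 3 + C (-3 * W.b₄) * X ^ 2 + C (-3 * W.b₆) * X + C (-W.b₈)

theorem count_psi3_eval (W : WeierstrassCurve F) (x : F) :
    (count_psi3 W).eval x = dupN W x - x * dupD W x := by
  simp only [count_psi3, dupN, dupD, eval_add, eval_mul, eval_C, eval_pow, eval_X]
  ring

theorem count_psi3_natDegree [CharZero F] (W : WeierstrassCurve F) :
    (count_psi3 W).natDegree = 4 := by
  unfold count_psi3
  compute_degree!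

/-- `phi5` as a polynomial. -/
noncomputable def count_phi5 (W : WeierstrassCurve F) : F[X] :=
  C 5 * X ^ 12 + C (5 * W.b₂) * X ^ 11 + C (W.b₂ ^ 2 + 31 * W.b₄) * X ^ 10 +
  C (10 * W.b₂ * W.b₄ + 95 * W.b₆) * X ^ 9 +
  C (54 * W.b₂ * W.b₆ - 9 * W.b₄ ^ 2 + 69 * W.b₈) * X ^ 8 +
  C (11 * W.b₂ ^ 2 * W.b₆ - 11 * W.b₂ * W.b₄ ^ 2 + 46 * W.b₂ * W.b₈ + 30 * W.b₄ * W.b₆) * X ^ 7 +
  C (W.b₂ ^ 3 * W.b₆ - W.b₂ ^ 2 * W.b₄ ^ 2 + 11 * W.b₂ ^ 2 * W.b₈ + 8 * W.b₂ * W.b₄ * W.b₆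
    - 23 * W.b₄ ^ 3 + 58 * W.b₄ * W.b₈ - 15 * W.b₆ ^ 2) * X ^ 6 +
  C (W.b₂ ^ 3 * W.b₈ + 3 * W.b₂ ^ 2 * W.b₄ * W.b₆ - 4 * W.b₂ * W.b₄ ^ 3
    + 30 * W.b₂ * W.b₄ * W.b₈ - 6 * W.b₂ * W.b₆ ^ 2 - 45 * W.b₄ ^ 2 * W.b₆
    - 6 * W.b₆ * W.b₈) * X ^ 5 +
  C (5 * W.b₂ ^ 2 * W.b₄ * W.b₈ + W.b₂ ^ 2 * W.b₆ ^ 2 - 2 * W.b₂ * W.b₄ ^ 2 * W.b₆
    + 2 * W.b₂ * W.b₆ * W.b₈ - 4 * W.b₄ ^ 4 + 13 * W.b₄ ^ 2 * W.b₈ - 60 * W.b₄ * W.b₆ ^ 2
    - 9 * W.b₈ ^ 2) * X ^ 4 +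
  C (2 * W.b₂ ^ 2 * W.b₆ * W.b₈ + 8 * W.b₂ * W.b₄ ^ 2 * W.b₈ - 2 * W.b₂ * W.b₄ * W.b₆ ^ 2
    - 3 * W.b₂ * W.b₈ ^ 2 - 8 * W.b₄ ^ 3 * W.b₆ - 22 * W.b₄ * W.b₆ * W.b₈
    - 25 * W.b₆ ^ 3) * X ^ 3 +
  C (6 * W.b₂ * W.b₄ * W.b₆ * W.b₈ - W.b₂ * W.b₆ ^ 3 + 4 * W.b₄ ^ 3 * W.b₈
    - 9 * W.b₄ ^ 2 * W.b₆ ^ 2 - 9 * W.b₄ * W.b₈ ^ 2 - 21 * W.b₆ ^ 2 * W.b₈) * X ^ 2 +
  C (W.b₂ * W.b₆ ^ 2 * W.b₈ + 4 * W.b₄ ^ 2 * W.b₆ * W.b₈ - 5 * W.b₄ * W.b₆ ^ 3
    - 9 * W.b₆ * W.b₈ ^ 2) * X +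
  C (W.b₄ * W.b₆ ^ 2 * W.b₈ - W.b₆ ^ 4 - W.b₈ ^ 3)

theorem count_phi5_natDegree [CharZero F] (W : WeierstrassCurve F) :
    (count_phi5 W).natDegree = 12 := by
  unfold count_phi5
  compute_degree!

end Fermat.Agent.S51
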