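import Fermat.Agent.S51.Tors
import Fermat.Agent.S51.CountAux

/-!
# S51: the 3- and 5-torsion subgroups are nontrivial of order at most 9, resp. 25
-/

set_option autoImplicit false
set_option linter.unusedSectionVars false

namespace Fermat.Agent.S51

open WeierstrassCurve WeierstrassCurve.Affine Polynomial

variable {F : Type*} [Field F] [DecidableEq F] {W : Affine F}

theorem count_phi5_eval (W : WeierstrassCurve F) (x : F) :
    (count_phi5 W).eval x = phi5 W x := by
  simp only [count_phi5, phi5, dupN, dupD, eval_add, eval_mul, eval_C, eval_pow, eval_X]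
  ring

theorem count_mem_tors3 [CharZero F] (hΔ : W.Δ ≠ 0) (P : W.Point) (hP : P ≠ 0) :
    P ∈ Submodule.torsionBy ℤ W.Point (3 : ℕ) ↔ (count_psi3 W).IsRoot (xc P) := by
  rw [Submodule.mem_torsionBy_iff, IsRoot.def, count_psi3_eval, sub_eq_zero,
    ← three_tors_iff hΔ P hP]
  norm_num

theorem count_mem_tors5 [CharZero F] (hΔ : W.Δ ≠ 0) (P : W.Point) (hP : P ≠ 0) :
    P ∈ Submodule.torsionBy ℤ W.Point (5 : ℕ) ↔ (count_phi5 W).IsRoot (xc P) := by
  rw [Submodule.mem_torsionBy_iff, IsRoot.def, count_phi5_eval, ← five_tors_iff hΔ P hP]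
  norm_num

theorem count_psi3_ne_zero [CharZero F] (W : WeierstrassCurve F) : count_psi3 W ≠ 0 := by
  intro h
  have := count_psi3_natDegree W
  rw [h, natDegree_zero] at this
  omega

theorem count_phi5_ne_zero [CharZero F] (W : WeierstrassCurve F) : count_phi5 W ≠ 0 := by
  intro h
  have := count_phi5_natDegree W
  rw [h, natDegree_zero] at this
  omega

theorem count_tors3_aux [CharZero F] (hΔ : W.Δ ≠ 0) :
    (Submodule.torsionBy ℤ W.Point (3 : ℕ) : Set W.Point).Finite ∧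
      (Submodule.torsionBy ℤ W.Point (3 : ℕ) : Set W.Point).ncard ≤ 9 := by
  have h := count_finite_ncard_le (count_psi3 W) (count_psi3_ne_zero W)
    (Submodule.torsionBy ℤ W.Point (3 : ℕ) : Set W.Point)
    (fun P hP h0 => (count_mem_tors3 hΔ P h0).mp hP)
  rw [count_psi3_natDegree] at h
  exact h

theorem count_tors5_aux [CharZero F] (hΔ : W.Δ ≠ 0) :
    (Submodule.torsionBy ℤ W.Point (5 : ℕ) : Set W.Point).Finite ∧
      (Submodule.torsionBy ℤ W.Point (5 : ℕ) : Set W.Point).ncard ≤ 25 := by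
  have h := count_finite_ncard_le (count_phi5 W) (count_phi5_ne_zero W)
    (Submodule.torsionBy ℤ W.Point (5 : ℕ) : Set W.Point)
    (fun P hP h0 => (count_mem_tors5 hΔ P h0).mp hP)
  rw [count_phi5_natDegree] at h
  exact h

theorem tors3_finite [CharZero F] (hΔ : W.Δ ≠ 0) :
    Finite (Submodule.torsionBy ℤ W.Point (3 : ℕ)) :=
  (count_tors3_aux hΔ).1

theorem tors3_card_le [CharZero F] (hΔ : W.Δ ≠ 0) :
    Nat.card (Submodule.torsionBy ℤ W.Point (3 : ℕ)) ≤ 9 :=
  (count_tors3_aux hΔ).2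

theorem tors5_finite [CharZero F] (hΔ : W.Δ ≠ 0) :
    Finite (Submodule.torsionBy ℤ W.Point (5 : ℕ)) :=
  (count_tors5_aux hΔ).1

theorem tors5_card_le [CharZero F] (hΔ : W.Δ ≠ 0) :
    Nat.card (Submodule.torsionBy ℤ W.Point (5 : ℕ)) ≤ 25 :=
  (count_tors5_aux hΔ).2

theorem tors3_nontrivial [CharZero F] [IsAlgClosed F] (hΔ : W.Δ ≠ 0) :
    Nontrivial (Submodule.torsionBy ℤ W.Point (3 : ℕ)) := by
  have hdeg : (count_psi3 W).degree ≠ 0 := by
    rw [degree_eq_natDegree (count_psi3_ne_zero W), count_psi3_natDegree]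
    norm_num
  obtain ⟨P, hP, hroot⟩ := count_exists_point hΔ (count_psi3 W) hdeg
  have hmem := (count_mem_tors3 hΔ P hP).mpr hroot
  refine ⟨⟨⟨P, hmem⟩, 0, ?_⟩⟩
  intro h
  exact hP (congrArg Subtype.val h)

theorem tors5_nontrivial [CharZero F] [IsAlgClosed F] (hΔ : W.Δ ≠ 0) :
    Nontrivial (Submodule.torsionBy ℤ W.Point (5 : ℕ)) := by
  have hdeg : (count_phi5 W).degree ≠ 0 := by
    rw [degree_eq_natDegree (count_phi5_ne_zero W), count_phi5_natDegree]
    norm_num
  obtain ⟨P, hP, hroot⟩ := count_exists_point hΔ (count_phi5 W) hdeg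
  have hmem := (count_mem_tors5 hΔ P hP).mpr hroot
  refine ⟨⟨⟨P, hmem⟩, 0, ?_⟩⟩
  intro h
  exact hP (congrArg Subtype.val h)

end Fermat.Agent.S51
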