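import Mathlib
import Fermat.Prelude.Def_FLTPrelim_GaloisRep
import Fermat.Prelude.Def_FLTPrelim_Modularity
import Fermat.Prelude.Def_FLTPrelim_ModularRep

/-!
# S51: basic definitions

x-only arithmetic on a general Weierstrass curve:
* `dupN`, `dupD`: numerator and denominator of the duplication map on x-coordinates;
* `xc`: the x-coordinate of a point (junk value `0` at infinity);
* `IsFix5`: the pair `(u, v) = (x(P) + x(2P), x(P) x(2P))` attached to a point of order 5 is a
  fixed point of the add-sub map.
-/

set_option autoImplicit false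

namespace Fermat.Agent.S51

open WeierstrassCurve WeierstrassCurve.Affine

section Defs

variable {F : Type*} [CommRing F]

/-- Numerator of the duplication map on x-coordinates. -/
def dupN (W : WeierstrassCurve F) (x : F) : F :=
  x ^ 4 - W.b₄ * x ^ 2 - 2 * W.b₆ * x - W.b₈

/-- Denominator of the duplication map on x-coordinates. -/
def dupD (W : WeierstrassCurve F) (x : F) : F :=
  4 * x ^ 3 + W.b₂ * x ^ 2 + 2 * W.b₄ * x + W.b₆

/-- The x-coordinate of a point (`0` at infinity). -/
def xc {W : Affine F} : W.Point → F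
  | .zero => 0
  | .some x _ _ => x

/-- `(u, v)` is a fixed point of the add-sub map `(t, s) ↦ (x₊ + x₋, x₊ x₋)`. -/
def IsFix5 (W : WeierstrassCurve F) (u v : F) : Prop :=
  u * (u ^ 2 - 4 * v) = 2 * u * v + W.b₂ * v + W.b₄ * u + W.b₆ ∧
    v * (u ^ 2 - 4 * v) = v ^ 2 - W.b₄ * v - W.b₆ * u - W.b₈

@[simp] lemma xc_zero {W : Affine F} : xc (0 : W.Point) = 0 := rfl

@[simp] lemma xc_some {W : Affine F} {x y : F} (h : W.Nonsingular x y) :
    xc (Point.some x y h) = x := rfl

@[simp] lemma xc_neg {W : Affine F} (P : W.Point) : xc (-P) = xc P := by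
  cases P <;> rfl

end Defs

end Fermat.Agent.S51
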