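import Fermat.Agent.S51.XOnly

/-!
# S51: 3- and 5-torsion points in terms of x-coordinates
-/

set_option autoImplicit false
set_option linter.unusedSectionVars false

namespace Fermat.Agent.S51

open WeierstrassCurve WeierstrassCurve.Affine Polynomial

variable {F : Type*} [Field F] [DecidableEq F] {W : Affine F}

theorem tors_three_smul (P : W.Point) : (3 : ℤ) • P = P + P + P := by
  rw [show (3 : ℤ) = 1 + 1 + 1 by norm_num, add_smul, add_smul, one_smul]

theorem tors_five_smul (P : W.Point) : (5 : ℤ) • P = (P + P) + (P + P) + P := by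
  rw [show (5 : ℤ) = (1 + 1) + (1 + 1) + 1 by norm_num, add_smul, add_smul, add_smul, one_smul]

/-- (T3) nonzero 3-torsion points are cut out by `dupN = x * dupD` (i.e. `ψ₃ = 0`). -/
theorem three_tors_iff (hΔ : W.Δ ≠ 0) (P : W.Point) (hP : P ≠ 0) :
    (3 : ℤ) • P = 0 ↔ dupN W (xc P) = xc P * dupD W (xc P) := by
  rw [tors_three_smul]
  constructor
  · intro h3
    have h2 : P + P ≠ 0 := by
      intro h2
      rw [h2, zero_add] at h3
      exact hP h3
    have hneg : P + P = -P := eq_neg_of_add_eq_zero_left h3
    have := xc_double P hP h2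
    rw [hneg, xc_neg] at this
    exact this.symm
  · intro h
    have hD : dupD W (xc P) ≠ 0 := by
      intro hD
      rw [hD, mul_zero] at h
      exact dupN_dupD_coprime hΔ _ h hD
    have h2 : P + P ≠ 0 := fun h2 => hD ((dupD_eq_zero_iff P hP).mpr h2)
    have hx : xc (P + P) = xc P := by
      have := xc_double P hP h2
      rw [h] at this
      exact mul_right_cancel₀ hD this
    rcases (xc_eq_iff h2 hP).mp hx with h' | h'
    · exfalso
      apply hP
      have : P + P = P + 0 := by rw [add_zero]; exact h'
      exact add_left_cancel this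
    · rw [h', neg_add_cancel]

/-- The degree 12 polynomial (`= ± ψ₅`) cutting out the x-coordinates of points of order 5:
`Φ = (N + xD)(N - xD)² - D (2(N + xD) N x + b₂ N x D + b₄ (N + xD) D + b₆ D²)`. -/
def phi5 (W : WeierstrassCurve F) (x : F) : F :=
  (dupN W x + x * dupD W x) * (dupN W x - x * dupD W x) ^ 2 -
    dupD W x * (2 * (dupN W x + x * dupD W x) * dupN W x * x + W.b₂ * dupN W x * x * dupD W x +
      W.b₄ * (dupN W x + x * dupD W x) * dupD W x + W.b₆ * dupD W x ^ 2)

/-- (T5a) a point of order 5 gives a fixed point of the add-sub map. -/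
theorem five_tors_fix (P : W.Point) (hP : P ≠ 0) (h5 : (5 : ℤ) • P = 0) :
    P + P ≠ 0 ∧ xc P ≠ xc (P + P) ∧
      IsFix5 W (xc P + xc (P + P)) (xc P * xc (P + P)) := by
  rw [tors_five_smul] at h5
  have h2 : P + P ≠ 0 := by
    intro h2
    rw [h2, zero_add, zero_add] at h5
    exact hP h5
  have hx : xc P ≠ xc (P + P) := by
    intro hx
    rcases (xc_eq_iff hP h2).mp hx with h' | h'
    · apply hP
      have : P + 0 = P + P := by rw [add_zero]; exact h'
      exact (add_left_cancel this).symm
    · -- P = -(P + P), so 3P = 0 and then P = 0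
      have h3 : P + P + P = 0 := by
        nth_rewrite 3 [h']
        exact add_neg_cancel _
      apply hP
      have h5' : (P + P + P) + (P + P) = 0 := by
        rw [← h5]; abel
      rw [h3, zero_add] at h5'
      exact absurd h5' h2
  refine ⟨h2, hx, ?_⟩
  obtain ⟨-, -, hsum, hprod⟩ := xc_add_sub (P + P) P h2 hP (Ne.symm hx)
  have h3 : P + P + P = -(P + P) := by
    apply eq_neg_of_add_eq_zero_left
    rw [← h5]; abel
  rw [h3, xc_neg, add_sub_cancel_right] at hsum hprod
  constructor
  · linear_combination hsum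
  · linear_combination hprod

/-- (T5b) nonzero 5-torsion points are cut out by `phi5`. -/
theorem five_tors_iff (hΔ : W.Δ ≠ 0) (P : W.Point) (hP : P ≠ 0) :
    (5 : ℤ) • P = 0 ↔ phi5 W (xc P) = 0 := by
  constructor
  · intro h5
    obtain ⟨h2, hx, hfix, -⟩ := five_tors_fix P hP h5
    have hdup := xc_double P hP h2
    unfold phi5
    rw [← hdup]
    linear_combination (dupD W (xc P)) ^ 3 * hfix
  · intro hphi
    have hD : dupD W (xc P) ≠ 0 := by
      intro hD
      unfold phi5 at hphi
      rw [hD] at hphi
      have hN : dupN W (xc P) = 0 := by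
        have : dupN W (xc P) ^ 3 = 0 := by linear_combination hphi
        exact pow_eq_zero_iff (by norm_num) |>.mp this
      exact dupN_dupD_coprime hΔ _ hN hD
    have h2 : P + P ≠ 0 := fun h2 => hD ((dupD_eq_zero_iff P hP).mpr h2)
    have hdup := xc_double P hP h2
    have hx : xc (P + P) ≠ xc P := by
      intro hx
      rw [hx] at hdup
      unfold phi5 at hphi
      rw [← hdup] at hphi
      have : dupD W (xc P) ^ 4 = 0 := by
        have hD' : dupD W (xc P) = 4 * xc P ^ 3 + W.b₂ * xc P ^ 2 + 2 * W.b₄ * xc P + W.b₆ := rfl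
        linear_combination (-1 : F) * hphi + (dupD W (xc P)) ^ 3 * hD'
      exact hD (pow_eq_zero_iff (by norm_num) |>.mp this)
    obtain ⟨h3, -, hsum, -⟩ := xc_add_sub (P + P) P h2 hP hx
    rw [add_sub_cancel_right] at hsum
    unfold phi5 at hphi
    rw [← hdup] at hphi
    have hD3 : dupD W (xc P) ^ 3 ≠ 0 := pow_ne_zero _ hD
    have hxx : (xc (P + P) - xc P) ^ 2 ≠ 0 := pow_ne_zero _ (sub_ne_zero.mpr hx)
    have key : xc (P + P + P) = xc (P + P) := by
      have e1 : dupD W (xc P) ^ 3 * ((xc (P + P + P) - xc (P + P)) * (xc (P + P) - xc P) ^ 2) = 0 := by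
        linear_combination (dupD W (xc P)) ^ 3 * hsum - hphi
      rcases mul_eq_zero.mp e1 with h | h
      · exact absurd h hD3
      · rcases mul_eq_zero.mp h with h | h
        · exact sub_eq_zero.mp h
        · exact absurd h hxx
    rw [tors_five_smul]
    rcases (xc_eq_iff h3 h2).mp key with h' | h'
    · exfalso
      apply hP
      have : P + P + P = P + P + 0 := by rw [add_zero]; exact h'
      exact add_left_cancel this
    · have : P + P + (P + P) + P = (P + P + P) + (P + P) := by abel
      rw [this, h', neg_add_cancel]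

end Fermat.Agent.S51
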