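import Fermat.Agent.S51.X015Parity

/-!
# S51 / X015: the class lemma (2-descent) on `y² = x (x + 9) (x - 16)` (owner: helper4)

Every rational point `P` can be written as `P + T = 2 Q` with `T` a point of order dividing `4`.
-/

set_option autoImplicit false

namespace Fermat.Agent.S51

open WeierstrassCurve WeierstrassCurve.Affine

/-- The point `(x, y)` on the curve. -/
def x015_mk (x y : ℚ) (h : y ^ 2 = x * (x + 9) * (x - 16)) : x015E.Point :=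
  Point.some x y ((x015_nonsingular_iff x y).mpr h)

@[simp] lemma x015_xc_mk (x y : ℚ) (h : y ^ 2 = x * (x + 9) * (x - 16)) :
    xc (x015_mk x y h) = x := rfl

lemma x015_mk_ne_zero (x y : ℚ) (h : y ^ 2 = x * (x + 9) * (x - 16)) : x015_mk x y h ≠ 0 :=
  Point.some_ne_zero _

/-- Adding two points with distinct `x`-coordinates. -/
lemma x015_add_mk {x y xT yT : ℚ} (h : y ^ 2 = x * (x + 9) * (x - 16))
    (hT : yT ^ 2 = xT * (xT + 9) * (xT - 16)) (hx : x ≠ xT) :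
    x015_mk x y h + x015_mk xT yT hT ≠ 0 ∧
      xc (x015_mk x y h + x015_mk xT yT hT) = ((y - yT) / (x - xT)) ^ 2 + 7 - x - xT := by
  unfold x015_mk
  rw [Point.add_of_X_ne hx]
  refine ⟨Point.some_ne_zero _, ?_⟩
  rw [xc_some, slope_of_X_ne hx]
  simp only [addX, x015E_a₁, x015E_a₂]
  ring

/-- Halving: a point whose `x` and `x + 9` are squares is a double. -/
theorem x015_halve (P : x015E.Point) (hP : P ≠ 0) (h2 : P + P ≠ 0) (r₁ r₂ : ℚ)
    (h1 : xc P = r₁ ^ 2) (h9 : xc P + 9 = r₂ ^ 2) : ∃ Q : x015E.Point, Q + Q = P := by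
  obtain ⟨y, hy⟩ := x015_equation_of_point P hP
  have hne : xc P * (xc P + 9) * (xc P - 16) ≠ 0 := fun h =>
    h2 ((x015_double_eq_zero_iff P hP).mpr h)
  set x := xc P with hx
  have hx0 : x ≠ 0 := fun h => hne (by rw [h]; ring)
  have hx9 : x + 9 ≠ 0 := fun h => hne (by rw [h]; ring)
  have hr1 : r₁ ≠ 0 := by
    rintro rfl
    apply hx0; rw [h1]; ring
  have hr2 : r₂ ≠ 0 := by
    rintro rfl
    apply hx9; rw [h9]; ring
  obtain ⟨r₃, hr3⟩ : ∃ r₃ : ℚ, r₃ = y / (r₁ * r₂) := ⟨_, rfl⟩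
  have h16 : x - 16 = r₃ ^ 2 := by
    rw [hr3, div_pow, mul_pow, ← h1, ← h9, hy]
    field_simp
  have e1 : r₂ ^ 2 - r₁ ^ 2 = 9 := by rw [← h1, ← h9]; ring
  have e2 : r₁ ^ 2 - r₃ ^ 2 = 16 := by rw [← h1, ← h16]; ring
  have hs3 : r₁ + r₂ ≠ 0 := by
    intro h
    have : r₂ ^ 2 - r₁ ^ 2 = 0 := by
      have : r₂ = -r₁ := by linear_combination h
      rw [this]; ring
    rw [e1] at this; norm_num at this
  have hs2 : r₁ + r₃ ≠ 0 := by
    intro h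
    have : r₁ ^ 2 - r₃ ^ 2 = 0 := by
      have : r₃ = -r₁ := by linear_combination h
      rw [this]; ring
    rw [e2] at this; norm_num at this
  have hs1 : r₂ + r₃ ≠ 0 := by
    intro h
    have : r₂ ^ 2 - r₃ ^ 2 = 0 := by
      have : r₃ = -r₂ := by linear_combination h
      rw [this]; ring
    have : (25 : ℚ) = 0 := by linear_combination this - e1 - e2
    norm_num at this
  obtain ⟨x₁, hx₁⟩ : ∃ x₁ : ℚ, x₁ = (r₁ + r₃) * (r₁ + r₂) := ⟨_, rfl⟩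
  obtain ⟨y₁, hy₁⟩ : ∃ y₁ : ℚ, y₁ = (r₂ + r₃) * (r₁ + r₃) * (r₁ + r₂) := ⟨_, rfl⟩
  have hy₁0 : y₁ ≠ 0 := by rw [hy₁]; exact mul_ne_zero (mul_ne_zero hs1 hs2) hs3
  have hx₁9 : x₁ + 9 = (r₁ + r₂) * (r₂ + r₃) := by rw [hx₁]; linear_combination -e1
  have hx₁16 : x₁ - 16 = (r₁ + r₃) * (r₂ + r₃) := by rw [hx₁]; linear_combination e2
  have hQ : y₁ ^ 2 = x₁ * (x₁ + 9) * (x₁ - 16) := by
    rw [hx₁9, hx₁16, hx₁, hy₁]; ring
  have hkey : x₁ ^ 2 + 144 = 2 * r₁ * y₁ := by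
    rw [hx₁, hy₁]
    linear_combination (-(r₁ ^ 2 - r₃ ^ 2)) * e1 + (-9) * e2
  set Q := x015_mk x₁ y₁ hQ with hQdef
  have hQ0 : Q ≠ 0 := x015_mk_ne_zero _ _ _
  have hQQ : Q + Q ≠ 0 := by
    intro h
    have := (x015_double_eq_zero_iff Q hQ0).mp h
    rw [hQdef, x015_xc_mk, ← hQ] at this
    exact hy₁0 (pow_eq_zero_iff two_ne_zero |>.mp this)
  have hd := x015_xc_double Q hQ0 hQQ
  rw [hQdef, x015_xc_mk, ← hQdef] at hd
  have hxc : xc (Q + Q) = xc P := by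
    rw [← hx, h1]
    have h4 : 4 * x₁ * (x₁ + 9) * (x₁ - 16) = 4 * y₁ ^ 2 := by rw [hQ]; ring
    rw [h4, hkey] at hd
    have h5 : (4 * y₁ ^ 2) ≠ 0 := by positivity
    apply mul_right_cancel₀ h5
    rw [hd]; ring
  rcases (xc_eq_iff hQQ hP).mp hxc with h | h
  · exact ⟨Q, h⟩
  · refine ⟨-Q, ?_⟩
    rw [← neg_add, h, neg_neg]

/-! ### The three translations: algebra -/

lemma x015_alg_C {x y r₁ r₂ : ℚ} (hxy : y ^ 2 = x * (x + 9) * (x - 16)) (hd : x - 36 ≠ 0)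
    (hr1 : x = r₁ ^ 2) (hr2 : x + 9 = 5 * r₂ ^ 2) (h1 : r₁ ≠ 0) (h2 : r₂ ≠ 0) :
    ((y - 180) / (x - 36)) ^ 2 + 7 - x - 36 = (6 * (5 * x - y) / ((x - 36) * r₁)) ^ 2 ∧
    ((y - 180) / (x - 36)) ^ 2 + 7 - x - 36 + 9 =
      (3 * (4 * x + 36 - y) / (r₂ * (x - 36))) ^ 2 := by
  obtain ⟨ℓ, hℓ'⟩ : ∃ ℓ : ℚ, ℓ = (y - 180) / (x - 36) := ⟨_, rfl⟩
  have hℓ : ℓ * (x - 36) = y - 180 := by rw [hℓ', div_mul_cancel₀ _ hd]
  rw [← hℓ']
  constructor
  · rw [div_pow, eq_div_iff (pow_ne_zero 2 (mul_ne_zero hd h1))]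
    linear_combination (x - 36) * hxy + x * (ℓ * (x - 36) + (y - 180)) * hℓ
      - (ℓ ^ 2 - 29 - x) * (x - 36) ^ 2 * hr1
  · rw [div_pow, eq_div_iff (pow_ne_zero 2 (mul_ne_zero h2 hd))]
    linear_combination (1 / 5 : ℚ) * ((x - 36) * hxy + (x + 9) * (ℓ * (x - 36) + (y - 180)) * hℓ
      - (ℓ ^ 2 - 20 - x) * (x - 36) ^ 2 * hr2)

lemma x015_alg_D {x y r₁ r₂ : ℚ} (hxy : y ^ 2 = x * (x + 9) * (x - 16)) (hd : x - (-4) ≠ 0)
    (hr1 : -x = r₁ ^ 2) (hr2 : x + 9 = 5 * r₂ ^ 2) (h1 : r₁ ≠ 0) (h2 : r₂ ≠ 0) :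
    ((y - 20) / (x - (-4))) ^ 2 + 7 - x - (-4) = (2 * (y + 5 * x) / (r₁ * (x - (-4)))) ^ 2 ∧
    ((y - 20) / (x - (-4))) ^ 2 + 7 - x - (-4) + 9 =
      ((4 * x + 36 - y) / (r₂ * (x - (-4)))) ^ 2 := by
  obtain ⟨ℓ, hℓ'⟩ : ∃ ℓ : ℚ, ℓ = (y - 20) / (x - (-4)) := ⟨_, rfl⟩
  have hℓ : ℓ * (x - (-4)) = y - 20 := by rw [hℓ', div_mul_cancel₀ _ hd]
  rw [← hℓ']
  constructor
  · rw [div_pow, eq_div_iff (pow_ne_zero 2 (mul_ne_zero h1 hd))]
    linear_combination (-(x + 4)) * hxy + (-x) * (ℓ * (x + 4) + (y - 20)) * hℓ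
      - (ℓ ^ 2 + 11 - x) * (x + 4) ^ 2 * hr1
  · rw [div_pow, eq_div_iff (pow_ne_zero 2 (mul_ne_zero h2 hd))]
    linear_combination (1 / 5 : ℚ) * ((x + 4) * hxy + (x + 9) * (ℓ * (x + 4) + (y - 20)) * hℓ
      - (ℓ ^ 2 + 20 - x) * (x + 4) ^ 2 * hr2)

lemma x015_alg_B {x y r₁ r₂ : ℚ} (hxy : y ^ 2 = x * (x + 9) * (x - 16)) (hd : x - 0 ≠ 0)
    (hr1 : -x = r₁ ^ 2) (hr2 : x + 9 = r₂ ^ 2) (h1 : r₁ ≠ 0) (h2 : r₂ ≠ 0) :
    ((y - 0) / (x - 0)) ^ 2 + 7 - x - 0 = (12 / r₁) ^ 2 ∧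
    ((y - 0) / (x - 0)) ^ 2 + 7 - x - 0 + 9 = (3 * y / (r₂ * x)) ^ 2 := by
  have hx : x ≠ 0 := by simpa using hd
  obtain ⟨ℓ, hℓ'⟩ : ∃ ℓ : ℚ, ℓ = (y - 0) / (x - 0) := ⟨_, rfl⟩
  have hℓ : ℓ * x = y := by rw [hℓ', sub_zero, sub_zero, div_mul_cancel₀ _ hx]
  rw [← hℓ']
  constructor
  · rw [div_pow, eq_div_iff (pow_ne_zero 2 h1)]
    apply mul_right_cancel₀ hx
    linear_combination (-1 : ℚ) * ((ℓ * x + y) * hℓ + hxy) - (ℓ ^ 2 + 7 - x) * x * hr1
  · rw [div_pow, eq_div_iff (pow_ne_zero 2 (mul_ne_zero h2 hx))]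
    linear_combination (x + 9) * (ℓ * x + y) * hℓ + x * hxy - (ℓ ^ 2 + 7 - x + 9) * x ^ 2 * hr2

/-! ### Torsion points -/

/-- The point `(0, 0)` of order `2`. -/
def x015_T0 : x015E.Point := x015_mk 0 0 (by norm_num)

/-- The point `(36, 180)` of order `4`. -/
def x015_T4 : x015E.Point := x015_mk 36 180 (by norm_num)

/-- The point `(-4, 20)` of order `4`. -/
def x015_T4' : x015E.Point := x015_mk (-4) 20 (by norm_num)

lemma x015_four_of_xc_double {T : x015E.Point}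
    (h : T + T ≠ 0 → xc (T + T) = 16) : (T + T) + (T + T) = 0 := by
  by_cases h2 : T + T = 0
  · rw [h2, add_zero]
  · rw [x015_double_eq_zero_iff (T + T) h2, h h2]
    norm_num

lemma x015_T0_four : (x015_T0 + x015_T0) + (x015_T0 + x015_T0) = 0 := by
  have h2 : x015_T0 + x015_T0 = 0 := by
    rw [x015_double_eq_zero_iff x015_T0 (x015_mk_ne_zero _ _ _)]
    simp [x015_T0]
  rw [h2, add_zero]

lemma x015_T4_four : (x015_T4 + x015_T4) + (x015_T4 + x015_T4) = 0 := by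
  apply x015_four_of_xc_double
  intro h2
  have hd := x015_xc_double x015_T4 (x015_mk_ne_zero _ _ _) h2
  simp only [x015_T4, x015_xc_mk] at hd ⊢
  linear_combination hd / 129600

lemma x015_T4'_four : (x015_T4' + x015_T4') + (x015_T4' + x015_T4') = 0 := by
  apply x015_four_of_xc_double
  intro h2
  have hd := x015_xc_double x015_T4' (x015_mk_ne_zero _ _ _) h2
  simp only [x015_T4', x015_xc_mk] at hd ⊢
  linear_combination hd / 1600

lemma x015_four_translate (P T : x015E.Point) (hT : (T + T) + (T + T) = 0) :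
    ((P + T) + (P + T)) + ((P + T) + (P + T)) = (P + P) + (P + P) := by
  have : ((P + T) + (P + T)) + ((P + T) + (P + T)) =
      ((P + P) + (P + P)) + ((T + T) + (T + T)) := by abel
  rw [this, hT, add_zero]

lemma x015_ne_of_four {P : x015E.Point} (h4 : (P + P) + (P + P) ≠ 0) : P ≠ 0 ∧ P + P ≠ 0 := by
  constructor
  · rintro rfl
    exact h4 (by simp)
  · intro h
    exact h4 (by rw [h, add_zero])

lemma x015_xc_ne_of_four {P T : x015E.Point} (h4 : (P + P) + (P + P) ≠ 0) (hT : T ≠ 0)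
    (hT4 : (T + T) + (T + T) = 0) : xc P ≠ xc T := by
  intro h
  rcases (xc_eq_iff (x015_ne_of_four h4).1 hT).mp h with h | h
  · exact h4 (by rw [h, hT4])
  · apply h4
    rw [h]
    have : (-T + -T) + (-T + -T) = -((T + T) + (T + T)) := by abel
    rw [this, hT4, neg_zero]

/-- Halving after translation. -/
lemma x015_halve_translate (P T : x015E.Point) (h4 : (P + P) + (P + P) ≠ 0)
    (hT4 : (T + T) + (T + T) = 0) (r₁ r₂ : ℚ) (h1 : xc (P + T) = r₁ ^ 2)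
    (h9 : xc (P + T) + 9 = r₂ ^ 2) :
    ∃ T Q : x015E.Point, (T + T) + (T + T) = 0 ∧ P + T = Q + Q := by
  have h4' : ((P + T) + (P + T)) + ((P + T) + (P + T)) ≠ 0 := by
    rwa [x015_four_translate P T hT4]
  obtain ⟨hPT, hPT2⟩ := x015_ne_of_four h4'
  obtain ⟨Q, hQ⟩ := x015_halve (P + T) hPT hPT2 r₁ r₂ h1 h9
  exact ⟨T, Q, hT4, hQ.symm⟩

/-- **Class lemma**: every rational point is, up to a point of order dividing `4`, a double. -/
theorem x015_class (P : x015E.Point) (h4 : (P + P) + (P + P) ≠ 0) :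
    ∃ T Q : x015E.Point, (T + T) + (T + T) = 0 ∧ P + T = Q + Q := by
  obtain ⟨hP, hP2⟩ := x015_ne_of_four h4
  have hne36 := x015_xc_ne_of_four h4 (x015_mk_ne_zero _ _ _) x015_T4_four
  have hne4 := x015_xc_ne_of_four h4 (x015_mk_ne_zero _ _ _) x015_T4'_four
  have hne : xc P * (xc P + 9) * (xc P - 16) ≠ 0 := fun h =>
    hP2 ((x015_double_eq_zero_iff P hP).mpr h)
  rcases P with _ | ⟨x, y, hns⟩
  · exact absurd rfl hP
  have hxy : y ^ 2 = x * (x + 9) * (x - 16) := (x015_nonsingular_iff x y).mp hns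
  have hPmk : Point.some x y hns = x015_mk x y hxy := rfl
  rw [hPmk] at h4 hP hP2 hne36 hne4 hne ⊢
  simp only [x015_xc_mk] at hne36 hne4 hne
  have hy0 : y ≠ 0 := by
    rintro rfl
    apply hne
    rw [← hxy]; ring
  obtain ⟨hx0, hx9, hx16⟩ := x015_ne_of_eq hy0 hxy
  have hypos : 0 < y ^ 2 := by positivity
  -- `x + 9 > 0`
  have h9pos : 0 < x + 9 := by
    by_contra hcon
    rw [not_lt] at hcon
    have hxneg : x < 0 := by linarith
    have h16neg : x - 16 < 0 := by linarith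
    have h1 : 0 < x * (x - 16) := mul_pos_of_neg_of_neg hxneg h16neg
    have h2 : x * (x - 16) * (x + 9) ≤ 0 := mul_nonpos_of_nonneg_of_nonpos h1.le hcon
    have h3 : x * (x + 9) * (x - 16) = x * (x - 16) * (x + 9) := by ring
    rw [hxy, h3] at hypos
    exact absurd hypos (not_lt.mpr h2)
  obtain ⟨r₂, hr2⟩ := x015_rat_sq_or_five_sq h9pos
    (fun p hp hp5 => x015_even_val_x9 hy0 hxy p hp hp5)
  have hr20 : r₂ ≠ 0 := by
    rintro rfl
    rcases hr2 with h | h <;> (apply hx9; rw [h]; ring)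
  rcases lt_or_gt_of_ne hx0 with hxneg | hxpos
  · -- `x < 0`
    obtain ⟨r₁, hr1⟩ := x015_rat_sq_of_even (q := -x) (by linarith)
      (fun p hp => by rw [padicValRat.neg]; exact x015_even_val_x hy0 hxy p hp)
    have hr10 : r₁ ≠ 0 := by
      rintro rfl
      apply hx0
      have : -x = 0 := by rw [hr1]; ring
      linarith
    rcases hr2 with hr2 | hr2
    · -- translate by `(0, 0)`
      have hd : x - 0 ≠ 0 := by simpa using hx0
      obtain ⟨-, hxc⟩ := x015_add_mk hxy (show (0 : ℚ) ^ 2 = 0 * (0 + 9) * (0 - 16) by norm_num)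
        (show x ≠ 0 from hx0)
      obtain ⟨e1, e2⟩ := x015_alg_B hxy hd hr1 hr2 hr10 hr20
      exact x015_halve_translate _ x015_T0 h4 x015_T0_four _ _
        (by rw [x015_T0, hxc, e1]) (by rw [x015_T0, hxc, e2])
    · -- translate by `(-4, 20)`
      have hd : x - (-4) ≠ 0 := sub_ne_zero.mpr hne4
      obtain ⟨-, hxc⟩ := x015_add_mk hxy
        (show (20 : ℚ) ^ 2 = (-4) * (-4 + 9) * (-4 - 16) by norm_num) hne4
      obtain ⟨e1, e2⟩ := x015_alg_D hxy hd hr1 hr2 hr10 hr20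
      exact x015_halve_translate _ x015_T4' h4 x015_T4'_four _ _
        (by rw [x015_T4', hxc, e1]) (by rw [x015_T4', hxc, e2])
  · -- `x > 0`
    obtain ⟨r₁, hr1⟩ := x015_rat_sq_of_even (q := x) hxpos
      (fun p hp => x015_even_val_x hy0 hxy p hp)
    have hr10 : r₁ ≠ 0 := by
      rintro rfl
      apply hx0
      rw [hr1]; ring
    rcases hr2 with hr2 | hr2
    · -- no translation
      refine ⟨0, ?_⟩
      obtain ⟨Q, hQ⟩ := x015_halve _ hP hP2 r₁ r₂ (by rw [x015_xc_mk]; exact hr1)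
        (by rw [x015_xc_mk]; exact hr2)
      exact ⟨Q, by simp, by rw [add_zero]; exact hQ.symm⟩
    · -- translate by `(36, 180)`
      have hd : x - 36 ≠ 0 := sub_ne_zero.mpr hne36
      obtain ⟨-, hxc⟩ := x015_add_mk hxy
        (show (180 : ℚ) ^ 2 = 36 * (36 + 9) * (36 - 16) by norm_num) hne36
      obtain ⟨e1, e2⟩ := x015_alg_C hxy hd hr1 hr2 hr10 hr20
      exact x015_halve_translate _ x015_T4 h4 x015_T4_four _ _
        (by rw [x015_T4, hxc, e1]) (by rw [x015_T4, hxc, e2])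

end Fermat.Agent.S51
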