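import Mathlib

/-!
# S51 / X015: `p`-adic valuation lemmas on `ℚ` used in the 2-descent (owner: helper4)
-/

set_option autoImplicit false

namespace Fermat.Agent.S51

/-- If `v_p(q) ≥ 0` then `p` does not divide the denominator of `q`. -/
lemma x015_den_not_dvd {p : ℕ} [hp : Fact p.Prime] {q : ℚ} (hq : 0 ≤ padicValRat p q) :
    ¬ p ∣ q.den := by
  intro hd
  have hnum : ¬ (p : ℤ) ∣ q.num := by
    intro hn
    have h1 : p ∣ q.num.natAbs := Int.natCast_dvd.mp hn
    have h2 : p ∣ Nat.gcd q.num.natAbs q.den := Nat.dvd_gcd h1 hd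
    rw [q.reduced] at h2
    exact hp.out.one_lt.ne' (Nat.dvd_one.mp h2)
  rw [padicValRat_def, padicValInt.eq_zero_of_not_dvd hnum] at hq
  have h3 : 1 ≤ padicValNat p q.den := one_le_padicValNat_of_dvd q.den_ne_zero hd
  omega

/-- If `v_p(q) ≤ 0` and `q ≠ 0` then `p` does not divide the numerator of `q`. -/
lemma x015_num_not_dvd {p : ℕ} [hp : Fact p.Prime] {q : ℚ} (hq0 : q ≠ 0)
    (hq : padicValRat p q ≤ 0) : ¬ (p : ℤ) ∣ q.num := by
  intro hn
  have hden : ¬ p ∣ q.den := by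
    intro hd
    have h1 : p ∣ q.num.natAbs := Int.natCast_dvd.mp hn
    have h2 : p ∣ Nat.gcd q.num.natAbs q.den := Nat.dvd_gcd h1 hd
    rw [q.reduced] at h2
    exact hp.out.one_lt.ne' (Nat.dvd_one.mp h2)
  rw [padicValRat_def, padicValNat.eq_zero_of_not_dvd hden] at hq
  have hnum0 : q.num ≠ 0 := Rat.num_ne_zero.mpr hq0
  have h3 : 1 ≤ padicValNat p q.num.natAbs :=
    one_le_padicValNat_of_dvd (Int.natAbs_ne_zero.mpr hnum0) (Int.natCast_dvd.mp hn)
  simp only [padicValInt] at hq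
  omega

/-- `q = num / den` as a quotient of casts. -/
lemma x015_eq_num_div_den (q : ℚ) : q = (q.num : ℚ) / (q.den : ℚ) := (Rat.num_div_den q).symm

/-- 2-adic strictness: a sum of two rationals of valuation `0` has valuation `≥ 1`. -/
lemma x015_two_unit_add_unit {a b : ℚ} (ha0 : a ≠ 0) (hb0 : b ≠ 0) (hab : a + b ≠ 0)
    (ha : padicValRat 2 a = 0) (hb : padicValRat 2 b = 0) : 1 ≤ padicValRat 2 (a + b) := by
  have had : ¬ 2 ∣ a.den := x015_den_not_dvd (p := 2) ha.ge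
  have hbd : ¬ 2 ∣ b.den := x015_den_not_dvd (p := 2) hb.ge
  have han : ¬ (2 : ℤ) ∣ a.num := by
    have := x015_num_not_dvd (p := 2) ha0 ha.le
    simpa using this
  have hbn : ¬ (2 : ℤ) ∣ b.num := by
    have := x015_num_not_dvd (p := 2) hb0 hb.le
    simpa using this
  -- a + b = (a.num * b.den + b.num * a.den) / (a.den * b.den)
  have hsum : a + b = ((a.num * b.den + b.num * a.den : ℤ) : ℚ) / ((a.den * b.den : ℕ) : ℚ) := by
    have h1 : (a.den : ℚ) ≠ 0 := Nat.cast_ne_zero.mpr a.den_ne_zero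
    have h2 : (b.den : ℚ) ≠ 0 := Nat.cast_ne_zero.mpr b.den_ne_zero
    conv_lhs => rw [x015_eq_num_div_den a, x015_eq_num_div_den b]
    push_cast
    field_simp
  have hN0 : ((a.num * b.den + b.num * a.den : ℤ) : ℚ) ≠ 0 := by
    intro h
    rw [hsum, h, zero_div] at hab
    exact hab rfl
  have hD0 : ((a.den * b.den : ℕ) : ℚ) ≠ 0 :=
    Nat.cast_ne_zero.mpr (Nat.mul_ne_zero a.den_ne_zero b.den_ne_zero)
  rw [hsum, padicValRat.div hN0 hD0, padicValRat.of_int, padicValRat.of_nat]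
  have hDv : padicValNat 2 (a.den * b.den) = 0 := by
    apply padicValNat.eq_zero_of_not_dvd
    intro h
    rcases (Nat.Prime.dvd_mul Nat.prime_two).mp h with h | h
    · exact had h
    · exact hbd h
  have hNd : (2 : ℤ) ∣ a.num * b.den + b.num * a.den := by
    have e1 : a.num % 2 = 1 := by omega
    have e2 : b.num % 2 = 1 := by omega
    have e3 : (a.den : ℤ) % 2 = 1 := by omega
    have e4 : (b.den : ℤ) % 2 = 1 := by omega
    have : (a.num * b.den + b.num * a.den) % 2 = 0 := by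
      rw [Int.add_emod, Int.mul_emod, e1, e4, Int.mul_emod b.num, e2, e3]; norm_num
    exact Int.dvd_of_emod_eq_zero this
  have hNz : (a.num * b.den + b.num * a.den : ℤ) ≠ 0 := by
    intro h
    apply hN0
    rw [h]; simp
  have hNv : 1 ≤ padicValInt 2 (a.num * b.den + b.num * a.den) := by
    have := (padicValInt_dvd_iff (p := 2) 1 (a.num * b.den + b.num * a.den)).mp (by simpa using hNd)
    rcases this with h | h
    · exact absurd h hNz
    · exact h
  rw [hDv]
  push_cast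
  omega

/-- 2-adic strictness: if `v₂(a) = v₂(b)` then `v₂(a + b) ≥ v₂(a) + 1`. -/
lemma x015_two_strict {a b : ℚ} (ha0 : a ≠ 0) (hb0 : b ≠ 0) (hab : a + b ≠ 0)
    (h : padicValRat 2 a = padicValRat 2 b) : padicValRat 2 a + 1 ≤ padicValRat 2 (a + b) := by
  have hc0 : b / a ≠ 0 := div_ne_zero hb0 ha0
  have hc : padicValRat 2 (b / a) = 0 := by
    rw [padicValRat.div hb0 ha0, h, sub_self]
  have h1 : (1 : ℚ) + b / a ≠ 0 := by
    intro h1
    apply hab
    have : a + b = a * (1 + b / a) := by field_simp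
    rw [this, h1, mul_zero]
  have h2 := x015_two_unit_add_unit one_ne_zero hc0 h1 padicValRat.one hc
  have h3 : a + b = a * (1 + b / a) := by field_simp
  rw [h3, padicValRat.mul ha0 h1]
  omega

lemma x015_sq_mod_eight {x : ℤ} (h : x % 2 = 1) : x ^ 2 % 8 = 1 := by
  have h8 : x % 8 = 1 ∨ x % 8 = 3 ∨ x % 8 = 5 ∨ x % 8 = 7 := by omega
  rcases h8 with h8 | h8 | h8 | h8 <;> (rw [pow_two, Int.mul_emod, h8]; norm_num)

/-- The square of a 2-adic unit is `≡ 1 mod 8`. -/
lemma x015_two_sq_sub_one {z : ℚ} (hz0 : z ≠ 0) (hz : padicValRat 2 z = 0)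
    (h1 : z ^ 2 - 1 ≠ 0) : 3 ≤ padicValRat 2 (z ^ 2 - 1) := by
  have hd : ¬ 2 ∣ z.den := x015_den_not_dvd (p := 2) hz.ge
  have hn : ¬ (2 : ℤ) ∣ z.num := by
    have := x015_num_not_dvd (p := 2) hz0 hz.le
    simpa using this
  have hD0 : ((z.den ^ 2 : ℕ) : ℚ) ≠ 0 :=
    Nat.cast_ne_zero.mpr (pow_ne_zero 2 z.den_ne_zero)
  have hsum : z ^ 2 - 1 = ((z.num ^ 2 - (z.den : ℤ) ^ 2 : ℤ) : ℚ) / ((z.den ^ 2 : ℕ) : ℚ) := by
    have h1 : (z.den : ℚ) ≠ 0 := Nat.cast_ne_zero.mpr z.den_ne_zero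
    conv_lhs => rw [x015_eq_num_div_den z]
    push_cast
    field_simp
  have hN0 : ((z.num ^ 2 - (z.den : ℤ) ^ 2 : ℤ) : ℚ) ≠ 0 := by
    intro h
    rw [hsum, h, zero_div] at h1
    exact h1 rfl
  rw [hsum, padicValRat.div hN0 hD0, padicValRat.of_int, padicValRat.of_nat]
  have hDv : padicValNat 2 (z.den ^ 2) = 0 := by
    apply padicValNat.eq_zero_of_not_dvd
    intro h
    exact hd (Nat.Prime.dvd_of_dvd_pow Nat.prime_two h)
  have hNz : (z.num ^ 2 - (z.den : ℤ) ^ 2 : ℤ) ≠ 0 := by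
    intro h
    apply hN0
    rw [h]; simp
  have hNd : ((2 : ℕ) : ℤ) ^ 3 ∣ z.num ^ 2 - (z.den : ℤ) ^ 2 := by
    have e1 : z.num % 2 = 1 := by omega
    have e3 : (z.den : ℤ) % 2 = 1 := by omega
    have s1 : z.num ^ 2 % 8 = 1 := x015_sq_mod_eight e1
    have s2 : (z.den : ℤ) ^ 2 % 8 = 1 := x015_sq_mod_eight e3
    have : (z.num ^ 2 - (z.den : ℤ) ^ 2) % 8 = 0 := by omega
    have h8 : (8 : ℤ) ∣ z.num ^ 2 - (z.den : ℤ) ^ 2 := Int.dvd_of_emod_eq_zero this
    norm_num
    exact h8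
  have hNv : 3 ≤ padicValInt 2 (z.num ^ 2 - (z.den : ℤ) ^ 2) := by
    rcases (padicValInt_dvd_iff (p := 2) 3 (z.num ^ 2 - (z.den : ℤ) ^ 2)).mp hNd with h | h
    · exact absurd h hNz
    · exact h
  rw [hDv]
  push_cast
  omega

/-- `-1` is not a square mod 3: if `v₃(z) ≥ 0` then `v₃(z² + 1) = 0`. -/
lemma x015_three_sq_add_one {z : ℚ} (hz : 0 ≤ padicValRat 3 z) :
    padicValRat 3 (z ^ 2 + 1) = 0 := by
  have : Fact (Nat.Prime 3) := ⟨Nat.prime_three⟩
  have hd : ¬ 3 ∣ z.den := x015_den_not_dvd (p := 3) hz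
  have hD0 : ((z.den ^ 2 : ℕ) : ℚ) ≠ 0 :=
    Nat.cast_ne_zero.mpr (pow_ne_zero 2 z.den_ne_zero)
  have hsum : z ^ 2 + 1 = ((z.num ^ 2 + (z.den : ℤ) ^ 2 : ℤ) : ℚ) / ((z.den ^ 2 : ℕ) : ℚ) := by
    have h1 : (z.den : ℚ) ≠ 0 := Nat.cast_ne_zero.mpr z.den_ne_zero
    conv_lhs => rw [x015_eq_num_div_den z]
    push_cast
    field_simp
  have hpos : (0 : ℚ) < z ^ 2 + 1 := by positivity
  have hN0 : ((z.num ^ 2 + (z.den : ℤ) ^ 2 : ℤ) : ℚ) ≠ 0 := by
    intro h
    rw [hsum, h, zero_div] at hpos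
    exact lt_irrefl _ hpos
  rw [hsum, padicValRat.div hN0 hD0, padicValRat.of_int, padicValRat.of_nat]
  have hDv : padicValNat 3 (z.den ^ 2) = 0 := by
    apply padicValNat.eq_zero_of_not_dvd
    intro h
    exact hd (Nat.Prime.dvd_of_dvd_pow Nat.prime_three h)
  have hNd : ¬ ((3 : ℕ) : ℤ) ∣ z.num ^ 2 + (z.den : ℤ) ^ 2 := by
    intro h
    have hd' : ¬ (3 : ℤ) ∣ (z.den : ℤ) := by
      intro h'
      exact hd (by exact_mod_cast h')
    have h3 : (z.num ^ 2 + (z.den : ℤ) ^ 2) % 3 = 0 := Int.emod_eq_zero_of_dvd (by simpa using h)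
    have hd3 : (z.den : ℤ) % 3 = 1 ∨ (z.den : ℤ) % 3 = 2 := by omega
    have hn3 : z.num % 3 = 0 ∨ z.num % 3 = 1 ∨ z.num % 3 = 2 := by omega
    rcases hd3 with hd3 | hd3 <;> rcases hn3 with hn3 | hn3 | hn3 <;>
      · rw [pow_two, pow_two, Int.add_emod, Int.mul_emod, hn3, Int.mul_emod (z.den : ℤ), hd3] at h3
        norm_num at h3
  rw [hDv, padicValInt.eq_zero_of_not_dvd hNd]
  simp

/-- A nonzero natural number all of whose valuations are even is a square. -/
lemma x015_nat_sq_of_even {n : ℕ} (hn : n ≠ 0)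
    (h : ∀ p : ℕ, p.Prime → Even (padicValNat p n)) : ∃ m : ℕ, n = m ^ 2 := by
  obtain ⟨a, b, hab, hsq⟩ := Nat.sq_mul_squarefree n
  by_cases ha : a = 1
  · exact ⟨b, by rw [← hab, ha, mul_one]⟩
  exfalso
  have ha0 : a ≠ 0 := by
    rintro rfl
    rw [mul_zero] at hab
    exact hn hab.symm
  have hb0 : b ≠ 0 := by
    rintro rfl
    rw [zero_pow two_ne_zero, zero_mul] at hab
    exact hn hab.symm
  obtain ⟨p, hp, hpa⟩ := Nat.exists_prime_and_dvd ha
  haveI : Fact p.Prime := ⟨hp⟩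
  have h1 : 1 ≤ padicValNat p a := one_le_padicValNat_of_dvd ha0 hpa
  have h2 : padicValNat p a < 2 := by
    by_contra hcon
    push_neg at hcon
    have hdvd : p ^ 2 ∣ a := (padicValNat_dvd_iff_le ha0).mpr hcon
    have := hsq p (by rw [← pow_two]; exact hdvd)
    exact hp.one_lt.ne' (Nat.isUnit_iff.mp this)
  have h3 : padicValNat p n = 2 * padicValNat p b + padicValNat p a := by
    rw [← hab, padicValNat.mul (pow_ne_zero 2 hb0) ha0, padicValNat.pow]
  have h4 := h p hp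
  rw [h3] at h4
  rcases h4 with ⟨k, hk⟩
  omega

/-- A positive rational number all of whose valuations are even is a square. -/
lemma x015_rat_sq_of_even {q : ℚ} (hq : 0 < q)
    (h : ∀ p : ℕ, p.Prime → Even (padicValRat p q)) : ∃ r : ℚ, q = r ^ 2 := by
  have hnum : 0 < q.num := Rat.num_pos.mpr hq
  have key : ∀ p : ℕ, p.Prime →
      Even (padicValNat p q.num.natAbs) ∧ Even (padicValNat p q.den) := by
    intro p hp
    haveI : Fact p.Prime := ⟨hp⟩
    have hv := h p hp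
    rw [padicValRat_def] at hv
    simp only [padicValInt] at hv
    by_cases hd : p ∣ q.den
    · have hn : ¬ p ∣ q.num.natAbs := by
        intro hn
        have h2 : p ∣ Nat.gcd q.num.natAbs q.den := Nat.dvd_gcd hn hd
        rw [q.reduced] at h2
        exact hp.one_lt.ne' (Nat.dvd_one.mp h2)
      rw [padicValNat.eq_zero_of_not_dvd hn] at hv ⊢
      refine ⟨by simp, ?_⟩
      rcases hv with ⟨k, hk⟩
      refine ⟨(-k).toNat, ?_⟩
      omega
    · rw [padicValNat.eq_zero_of_not_dvd hd] at hv ⊢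
      refine ⟨?_, by simp⟩
      rcases hv with ⟨k, hk⟩
      refine ⟨k.toNat, ?_⟩
      omega
  obtain ⟨a, ha⟩ := x015_nat_sq_of_even (Int.natAbs_ne_zero.mpr hnum.ne') (fun p hp => (key p hp).1)
  obtain ⟨b, hb⟩ := x015_nat_sq_of_even q.den_ne_zero (fun p hp => (key p hp).2)
  refine ⟨(a : ℚ) / (b : ℚ), ?_⟩
  have hnum' : q.num = (a : ℤ) ^ 2 := by
    have : (q.num.natAbs : ℤ) = q.num := Int.natAbs_of_nonneg hnum.le
    rw [← this, ha]; push_cast; rfl
  rw [x015_eq_num_div_den q, hnum', hb]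
  push_cast
  rw [div_pow]

/-- A positive rational number whose valuations away from `5` are even is a square or
`5` times a square. -/
lemma x015_rat_sq_or_five_sq {q : ℚ} (hq : 0 < q)
    (h : ∀ p : ℕ, p.Prime → p ≠ 5 → Even (padicValRat p q)) :
    ∃ r : ℚ, q = r ^ 2 ∨ q = 5 * r ^ 2 := by
  have h5 : Fact (Nat.Prime 5) := ⟨by norm_num⟩
  by_cases he : Even (padicValRat 5 q)
  · obtain ⟨r, hr⟩ := x015_rat_sq_of_even hq (fun p hp => by
      by_cases hp5 : p = 5
      · subst hp5; exact he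
      · exact h p hp hp5)
    exact ⟨r, Or.inl hr⟩
  · have hq5 : 0 < q / 5 := by positivity
    obtain ⟨r, hr⟩ := x015_rat_sq_of_even hq5 (fun p hp => by
      haveI : Fact p.Prime := ⟨hp⟩
      rw [padicValRat.div hq.ne' (by norm_num)]
      by_cases hp5 : p = 5
      · subst hp5
        have : padicValRat 5 (5 : ℚ) = 1 := by
          have := padicValRat.self (p := 5) (by norm_num)
          simpa using this
        rw [this]
        rcases Int.even_or_odd (padicValRat 5 q) with h1 | h1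
        · exact absurd h1 he
        · rcases h1 with ⟨k, hk⟩
          exact ⟨k, by omega⟩
      · have : padicValRat p (5 : ℚ) = 0 := by
          have h1 : padicValRat p ((5 : ℕ) : ℚ) = padicValNat p 5 := padicValRat.of_nat
          have h2 : padicValNat p 5 = 0 := by
            apply padicValNat.eq_zero_of_not_dvd
            intro hdvd
            exact hp5 ((Nat.prime_dvd_prime_iff_eq hp (by norm_num)).mp hdvd)
          rw [h2] at h1
          simpa using h1
        rw [this, sub_zero]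
        exact h p hp hp5)
    refine ⟨r, Or.inr ?_⟩
    rw [← hr]; ring

end Fermat.Agent.S51
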