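import Fermat.Agent.S51.XOnly
import Fermat.Agent.S51.X015Val

/-!
# S51 / X015: the curve `15a1 : y² = x (x + 9) (x - 16)` over `ℚ` (owner: helper4)

Basic facts: equation, nonsingularity, duplication on `x`-coordinates, and the behaviour of the
2-adic valuation of the `x`-coordinate under duplication.
-/

set_option autoImplicit false

namespace Fermat.Agent.S51

open WeierstrassCurve WeierstrassCurve.Affine

/-- The elliptic curve `15a1` in the form `y² = x (x + 9) (x - 16)`. -/
def x015E : Affine ℚ := ⟨0, -7, 0, -144, 0⟩

@[simp] lemma x015E_a₁ : x015E.a₁ = 0 := rfl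
@[simp] lemma x015E_a₂ : x015E.a₂ = -7 := rfl
@[simp] lemma x015E_a₃ : x015E.a₃ = 0 := rfl
@[simp] lemma x015E_a₄ : x015E.a₄ = -144 := rfl
@[simp] lemma x015E_a₆ : x015E.a₆ = 0 := rfl

lemma x015_equation_iff (x y : ℚ) :
    x015E.Equation x y ↔ y ^ 2 = x * (x + 9) * (x - 16) := by
  rw [equation_iff]
  simp only [x015E_a₁, x015E_a₂, x015E_a₃, x015E_a₄, x015E_a₆]
  constructor <;> intro h <;> linear_combination h

lemma x015_nonsingular_iff (x y : ℚ) :
    x015E.Nonsingular x y ↔ y ^ 2 = x * (x + 9) * (x - 16) := by
  rw [nonsingular_iff, x015_equation_iff]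
  simp only [x015E_a₁, x015E_a₂, x015E_a₃, x015E_a₄]
  constructor
  · exact fun h => h.1
  · intro h
    refine ⟨h, ?_⟩
    by_cases hy : y = 0
    · left
      rw [hy] at h
      have h0 : x * (x + 9) * (x - 16) = 0 := by linear_combination -h
      rcases mul_eq_zero.mp h0 with h1 | h1
      · rcases mul_eq_zero.mp h1 with h2 | h2
        · rw [h2]; norm_num
        · have : x = -9 := by linear_combination h2
          rw [this]; norm_num
      · have : x = 16 := by linear_combination h1
        rw [this]; norm_num
    · right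
      intro h'
      apply hy
      linarith

lemma x015_dupN (x : ℚ) : dupN x015E x = (x ^ 2 + 144) ^ 2 := by
  simp only [dupN, WeierstrassCurve.b₄, WeierstrassCurve.b₆, WeierstrassCurve.b₈,
    x015E_a₁, x015E_a₂, x015E_a₃, x015E_a₄, x015E_a₆]
  ring

lemma x015_dupD (x : ℚ) : dupD x015E x = 4 * x * (x + 9) * (x - 16) := by
  simp only [dupD, WeierstrassCurve.b₂, WeierstrassCurve.b₄, WeierstrassCurve.b₆,
    x015E_a₁, x015E_a₂, x015E_a₃, x015E_a₄, x015E_a₆]
  ring

/-- Duplication formula on `x`-coordinates. -/
lemma x015_xc_double (P : x015E.Point) (hP : P ≠ 0) (h2 : P + P ≠ 0) :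
    xc (P + P) * (4 * xc P * (xc P + 9) * (xc P - 16)) = (xc P ^ 2 + 144) ^ 2 := by
  have := xc_double P hP h2
  rwa [x015_dupN, x015_dupD] at this

/-- `2P = 0` iff `x (x + 9) (x - 16) = 0`. -/
lemma x015_double_eq_zero_iff (P : x015E.Point) (hP : P ≠ 0) :
    P + P = 0 ↔ xc P * (xc P + 9) * (xc P - 16) = 0 := by
  rw [← dupD_eq_zero_iff P hP, x015_dupD]
  constructor
  · intro h; linear_combination h / 4
  · intro h; linear_combination 4 * h

lemma x015_equation_of_point (P : x015E.Point) (hP : P ≠ 0) :
    ∃ y : ℚ, y ^ 2 = xc P * (xc P + 9) * (xc P - 16) := by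
  rcases P with _ | ⟨x, y, h⟩
  · exact absurd rfl hP
  exact ⟨y, (x015_nonsingular_iff x y).mp h⟩

/-- Points of order dividing `4`. -/
lemma x015_four_torsion (P : x015E.Point) (h4 : (P + P) + (P + P) = 0) :
    P = 0 ∨ xc P = 0 ∨ xc P = -9 ∨ xc P = 16 ∨ xc P = 36 ∨ xc P = -4 := by
  by_cases hP : P = 0
  · exact Or.inl hP
  right
  by_cases h2 : P + P = 0
  · have := (x015_double_eq_zero_iff P hP).mp h2
    rcases mul_eq_zero.mp this with h1 | h1
    · rcases mul_eq_zero.mp h1 with h0 | h0
      · exact Or.inl h0
      · right; left; linear_combination h0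
    · right; right; left; linear_combination h1
  · have hd := x015_xc_double P hP h2
    have h4' := (x015_double_eq_zero_iff (P + P) h2).mp h4
    obtain ⟨y, hy⟩ := x015_equation_of_point P hP
    have hne : xc P * (xc P + 9) * (xc P - 16) ≠ 0 := by
      intro h
      exact h2 ((x015_double_eq_zero_iff P hP).mpr h)
    have hy0 : y ≠ 0 := by
      intro h
      rw [h] at hy
      exact hne (by linear_combination -hy)
    have hypos : 0 < y ^ 2 := by positivity
    set x := xc P with hx
    set X := xc (P + P) with hX
    rcases mul_eq_zero.mp h4' with h1 | h1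
    · rcases mul_eq_zero.mp h1 with h0 | h0
      · exfalso
        rw [h0, zero_mul] at hd
        have : 0 < (x ^ 2 + 144) ^ 2 := by positivity
        linarith
      · exfalso
        have hX9 : X = -9 := by linear_combination h0
        rw [hX9] at hd
        have : (x ^ 2 + 144) ^ 2 + 36 * y ^ 2 = 0 := by
          rw [hy]; linear_combination -hd
        have : 0 < (x ^ 2 + 144) ^ 2 := by positivity
        linarith
    · have hX16 : X = 16 := by linear_combination h1
      rw [hX16] at hd
      have : (x - 36) ^ 2 * (x + 4) ^ 2 = 0 := by linear_combination -hd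
      rcases mul_eq_zero.mp this with h | h
      · right; right; right; left
        have := pow_eq_zero_iff (two_ne_zero) |>.mp h
        linear_combination this
      · right; right; right; right
        have := pow_eq_zero_iff (two_ne_zero) |>.mp h
        linear_combination this

end Fermat.Agent.S51
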