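import Fermat.Agent.S51.X015Class

/-!
# S51 / X015: infinite descent on `y² = x (x + 9) (x - 16)` (owner: helper4)

The size function is `f(P) = -v₂(x(4P))`.  By the class lemma `P + T = 2Q` with `4T = 0`, so
`4P = 2(4Q)`, and the 2-adic duplication formula gives `f(P) = f(Q) + 2` with `f(Q) > 0`.
Hence there is no point with `4P ≠ 0`, and the rational points are the eight torsion points.
-/

set_option autoImplicit false

namespace Fermat.Agent.S51

open WeierstrassCurve WeierstrassCurve.Affine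

lemma x015_coords_ne {P : x015E.Point} (hP : P ≠ 0) (h2 : P + P ≠ 0) :
    xc P ≠ 0 ∧ xc P + 9 ≠ 0 ∧ xc P - 16 ≠ 0 := by
  have hne : xc P * (xc P + 9) * (xc P - 16) ≠ 0 := fun h =>
    h2 ((x015_double_eq_zero_iff P hP).mpr h)
  refine ⟨?_, ?_, ?_⟩ <;> (intro h0; apply hne; rw [h0]; ring)

/-- One descent step. -/
lemma x015_descent_step (P : x015E.Point) (h4 : (P + P) + (P + P) ≠ 0) :
    ∃ Q : x015E.Point, (Q + Q) + (Q + Q) ≠ 0 ∧
      padicValRat 2 (xc ((Q + Q) + (Q + Q))) < 0 ∧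
      padicValRat 2 (xc ((P + P) + (P + P))) = padicValRat 2 (xc ((Q + Q) + (Q + Q))) - 2 := by
  obtain ⟨T, Q, hT4, hPT⟩ := x015_class P h4
  have h4P : (P + P) + (P + P) = ((Q + Q) + (Q + Q)) + ((Q + Q) + (Q + Q)) := by
    rw [← x015_four_translate P T hT4, hPT]
  refine ⟨Q, ?_⟩
  obtain ⟨R, hR⟩ : ∃ R : x015E.Point, R = (Q + Q) + (Q + Q) := ⟨_, rfl⟩
  rw [← hR] at h4P ⊢
  have hRR : R + R ≠ 0 := by rwa [← h4P]
  have hR0 : R ≠ 0 := by
    rintro rfl
    exact hRR (by simp)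
  have hQ4 : (Q + Q) + (Q + Q) ≠ 0 := by rwa [← hR]
  obtain ⟨hQ, hQQ⟩ := x015_ne_of_four hQ4
  obtain ⟨a1, a2, a3⟩ := x015_coords_ne hQ hQQ
  obtain ⟨b1, b2, b3⟩ := x015_coords_ne hQQ hQ4
  obtain ⟨c1, c2, c3⟩ := x015_coords_ne hR0 hRR
  have d1 := x015_xc_double Q hQ hQQ
  have d2 := x015_xc_double (Q + Q) hQQ hQ4
  have d3 := x015_xc_double R hR0 hRR
  rw [← hR] at d2
  have hneg : padicValRat 2 (xc R) < 0 := x015_v2_double_double a1 a2 a3 d1 b1 b2 b3 d2
  refine ⟨hR0, hneg, ?_⟩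
  rw [h4P]
  exact (x015_v2_double c1 c2 c3 d3).1 hneg

/-- There is no point with `4P ≠ 0`. -/
lemma x015_no_descent : ∀ (n : ℕ) (P : x015E.Point), (P + P) + (P + P) ≠ 0 →
    -padicValRat 2 (xc ((P + P) + (P + P))) ≤ (n : ℤ) → False := by
  intro n
  induction n with
  | zero =>
    intro P h4 hle
    obtain ⟨Q, -, hneg, heq⟩ := x015_descent_step P h4
    rw [heq] at hle
    push_cast at hle
    omega
  | succ n ih =>
    intro P h4 hle
    obtain ⟨Q, hQ4, hneg, heq⟩ := x015_descent_step P h4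
    apply ih Q hQ4
    rw [heq] at hle
    push_cast at hle
    omega

/-- Every rational point is killed by `4`. -/
theorem x015_all_four_torsion (P : x015E.Point) : (P + P) + (P + P) = 0 := by
  by_contra h4
  exact x015_no_descent (-padicValRat 2 (xc ((P + P) + (P + P)))).toNat P h4 (Int.self_le_toNat _)

/-- **Rational points of `X₀(15)`**: the affine rational points of `y² = x (x + 9) (x - 16)`. -/
theorem x015_descent (X Y : ℚ) (h : Y ^ 2 = X * (X + 9) * (X - 16)) :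
    X = 0 ∨ X = -9 ∨ X = 16 ∨ X = -4 ∨ X = 36 := by
  have h4 := x015_four_torsion (x015_mk X Y h) (x015_all_four_torsion _)
  rw [x015_xc_mk] at h4
  rcases h4 with h0 | h0 | h0 | h0 | h0 | h0
  · exact absurd h0 (x015_mk_ne_zero _ _ _)
  · exact Or.inl h0
  · exact Or.inr (Or.inl h0)
  · exact Or.inr (Or.inr (Or.inl h0))
  · exact Or.inr (Or.inr (Or.inr (Or.inr h0)))
  · exact Or.inr (Or.inr (Or.inr (Or.inl h0)))

end Fermat.Agent.S51
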