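import Fermat.Agent.S51.X015Two

/-!
# S51 / X015: parity of valuations on `y² = x (x + 9) (x - 16)` (owner: helper4)

For a rational point with `y ≠ 0`: `v_p(x)` is even for all primes `p`, and `v_p(x + 9)` is even
for all primes `p ≠ 5`.
-/

set_option autoImplicit false

namespace Fermat.Agent.S51

/-- `q = 0` or `v_p(q) ≥ k`. -/
def x015_ge (p : ℕ) (k : ℤ) (q : ℚ) : Prop := q = 0 ∨ k ≤ padicValRat p q

lemma x015_ge_add {p : ℕ} [Fact p.Prime] {k : ℤ} {a b : ℚ} (ha : x015_ge p k a)
    (hb : x015_ge p k b) : x015_ge p k (a + b) := by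
  by_cases hab : a + b = 0
  · exact Or.inl hab
  right
  rcases ha with rfl | ha
  · rcases hb with rfl | hb
    · simp at hab
    · simpa using hb
  rcases hb with rfl | hb
  · simpa using ha
  exact le_trans (le_min ha hb) (padicValRat.min_le_padicValRat_add hab)

lemma x015_ge_of_le {p : ℕ} {k : ℤ} {a : ℚ} (h : k ≤ padicValRat p a) : x015_ge p k a := Or.inr h

/-- If `v(a) < k` and `b` is `0` or has `v(b) ≥ k`, then `a + b ≠ 0` and `v(a + b) = v(a)`. -/
lemma x015_val_add_ge {p : ℕ} [Fact p.Prime] {k : ℤ} {a b : ℚ} (ha0 : a ≠ 0)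
    (ha : padicValRat p a < k) (hb : x015_ge p k b) :
    a + b ≠ 0 ∧ padicValRat p (a + b) = padicValRat p a := by
  by_cases hb0 : b = 0
  · subst hb0
    simp [ha0]
  have hb : k ≤ padicValRat p b := by
    rcases hb with h | h
    · exact absurd h hb0
    · exact h
  have hne : a + b ≠ 0 := by
    intro h
    have : b = -a := by linear_combination h
    rw [this, padicValRat.neg] at hb
    linarith
  exact ⟨hne, padicValRat.add_eq_of_lt hne ha0 hb0 (lt_of_lt_of_le ha hb)⟩

/-- Valuation of a natural number not divisible by `p`. -/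
lemma x015_val_nat {p : ℕ} (n : ℕ) (h : ¬ p ∣ n) : padicValRat p (n : ℚ) = 0 := by
  rw [padicValRat.of_nat, padicValNat.eq_zero_of_not_dvd h]; rfl

lemma x015_val_add_const {p : ℕ} [Fact p.Prime] {x c : ℚ} (hx : x ≠ 0) (hc : c ≠ 0)
    (hxc : x + c ≠ 0) :
    (padicValRat p x < padicValRat p c → padicValRat p (x + c) = padicValRat p x) ∧
    (padicValRat p c < padicValRat p x → padicValRat p (x + c) = padicValRat p c) ∧
    (min (padicValRat p x) (padicValRat p c) ≤ padicValRat p (x + c)) := by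
  refine ⟨fun h => padicValRat.add_eq_of_lt hxc hx hc h, fun h => ?_,
    padicValRat.min_le_padicValRat_add hxc⟩
  rw [add_comm] at hxc ⊢
  exact padicValRat.add_eq_of_lt hxc hc hx h

section Consts

lemma x015_v3_three : padicValRat 3 (3 : ℚ) = 1 := by
  have := padicValRat.self (p := 3) (by norm_num)
  simpa using this

lemma x015_v3_nine : padicValRat 3 (9 : ℚ) = 2 := by
  have h : (9 : ℚ) = 3 ^ 2 := by norm_num
  rw [h, padicValRat.pow, x015_v3_three]; norm_num

lemma x015_v3_two : padicValRat 3 (2 : ℚ) = 0 := by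
  have := x015_val_nat (p := 3) 2 (by norm_num)
  simpa using this

lemma x015_v3_sixteen : padicValRat 3 (16 : ℚ) = 0 := by
  have := x015_val_nat (p := 3) 16 (by norm_num)
  simpa using this

lemma x015_v3_six : padicValRat 3 (6 : ℚ) = 1 := by
  have : Fact (Nat.Prime 3) := ⟨Nat.prime_three⟩
  have h : (6 : ℚ) = 3 * 2 := by norm_num
  rw [h, padicValRat.mul (by norm_num) (by norm_num), x015_v3_three, x015_v3_two]; norm_num

lemma x015_v3_144 : padicValRat 3 (144 : ℚ) = 2 := by
  have : Fact (Nat.Prime 3) := ⟨Nat.prime_three⟩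
  have h : (144 : ℚ) = 9 * 16 := by norm_num
  rw [h, padicValRat.mul (by norm_num) (by norm_num), x015_v3_nine, x015_v3_sixteen]; norm_num

lemma x015_v2_eight : padicValRat 2 (8 : ℚ) = 3 := by
  have h : (8 : ℚ) = 2 ^ 3 := by norm_num
  rw [h, padicValRat.pow, x015_v2_two]; norm_num

lemma x015_vp_nine {p : ℕ} (hp : p.Prime) (h3 : p ≠ 3) : padicValRat p (9 : ℚ) = 0 := by
  have := x015_val_nat (p := p) 9 (by
    intro h
    have h1 : p ∣ 3 ^ 2 := by norm_num; exact h
    exact h3 ((Nat.prime_dvd_prime_iff_eq hp Nat.prime_three).mp (hp.dvd_of_dvd_pow h1)))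
  simpa using this

lemma x015_vp_sixteen {p : ℕ} (hp : p.Prime) (h2 : p ≠ 2) : padicValRat p (16 : ℚ) = 0 := by
  have := x015_val_nat (p := p) 16 (by
    intro h
    have h1 : p ∣ 2 ^ 4 := by norm_num; exact h
    exact h2 ((Nat.prime_dvd_prime_iff_eq hp Nat.prime_two).mp (hp.dvd_of_dvd_pow h1)))
  simpa using this

lemma x015_vp_twentyfive {p : ℕ} (hp : p.Prime) (h5 : p ≠ 5) :
    padicValRat p (25 : ℚ) = 0 := by
  have := x015_val_nat (p := p) 25 (by
    intro h
    have h1 : p ∣ 5 ^ 2 := by norm_num; exact h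
    exact h5 ((Nat.prime_dvd_prime_iff_eq hp (by norm_num)).mp (hp.dvd_of_dvd_pow h1)))
  simpa using this

lemma x015_vp_nine_nonneg (p : ℕ) : 0 ≤ padicValRat p (9 : ℚ) := by
  have := zero_le_padicValRat_of_nat (p := p) 9
  simpa using this

lemma x015_vp_sixteen_nonneg (p : ℕ) : 0 ≤ padicValRat p (16 : ℚ) := by
  have := zero_le_padicValRat_of_nat (p := p) 16
  simpa using this

end Consts

section Point

variable {x y : ℚ}

lemma x015_ne_of_eq (hy : y ≠ 0) (h : y ^ 2 = x * (x + 9) * (x - 16)) :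
    x ≠ 0 ∧ x + 9 ≠ 0 ∧ x - 16 ≠ 0 := by
  have hy2 : y ^ 2 ≠ 0 := pow_ne_zero 2 hy
  rw [h] at hy2
  refine ⟨?_, ?_, ?_⟩ <;> (intro h0; apply hy2; rw [h0]; ring)

lemma x015_val_sum {p : ℕ} [Fact p.Prime] (hy : y ≠ 0) (h : y ^ 2 = x * (x + 9) * (x - 16)) :
    padicValRat p x + padicValRat p (x + 9) + padicValRat p (x - 16) = 2 * padicValRat p y := by
  obtain ⟨hx, h9, h16⟩ := x015_ne_of_eq hy h
  have := congrArg (padicValRat p) h
  rw [padicValRat.pow, padicValRat.mul (mul_ne_zero hx h9) h16, padicValRat.mul hx h9] at this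
  push_cast at this
  linarith

/-- The identity `(y/x)² = x - 7 - 144/x`. -/
lemma x015_z_sq (hy : y ≠ 0) (h : y ^ 2 = x * (x + 9) * (x - 16)) :
    (y / x) ^ 2 = x - 7 - 144 / x := by
  obtain ⟨hx, -, -⟩ := x015_ne_of_eq hy h
  field_simp
  linear_combination h

lemma x015_special3 (hy : y ≠ 0) (h : y ^ 2 = x * (x + 9) * (x - 16))
    (hv : padicValRat 3 x = 1) : False := by
  have : Fact (Nat.Prime 3) := ⟨Nat.prime_three⟩
  obtain ⟨hx, h9, h16⟩ := x015_ne_of_eq hy h
  have hsum := x015_val_sum (p := 3) hy h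
  have e2 : padicValRat 3 (x + 9) = 1 := by
    rw [(x015_val_add_const hx (by norm_num) h9).1 (by rw [hv, x015_v3_nine]; norm_num), hv]
  have e3 : padicValRat 3 (x - 16) = 0 := by
    have hv16 : padicValRat 3 (-16 : ℚ) = 0 := by rw [padicValRat.neg, x015_v3_sixteen]
    rw [sub_eq_add_neg] at h16 ⊢
    rw [(x015_val_add_const hx (by norm_num) h16).2.1 (by rw [hv, hv16]; norm_num), hv16]
  have hvy : padicValRat 3 y = 1 := by rw [hv, e2, e3] at hsum; linarith
  have hz : padicValRat 3 (y / x) = 0 := by rw [padicValRat.div hy hx, hvy, hv]; norm_num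
  have h0 := x015_three_sq_add_one (z := y / x) hz.ge
  have hzz : (y / x) ^ 2 + 1 = x + (-6 + -144 / x) := by
    rw [x015_z_sq hy h]; ring
  have hge : x015_ge 3 1 ((y / x) ^ 2 + 1) := by
    rw [hzz]
    refine x015_ge_add (x015_ge_of_le hv.ge) (x015_ge_add (x015_ge_of_le ?_) (x015_ge_of_le ?_))
    · rw [padicValRat.neg, x015_v3_six]
    · rw [padicValRat.div (by norm_num) hx, padicValRat.neg, x015_v3_144, hv]; norm_num
  rcases hge with hge | hge
  · have : (0 : ℚ) < (y / x) ^ 2 + 1 := by positivity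
    linarith
  · rw [h0] at hge
    norm_num at hge

lemma x015_special2 (hy : y ≠ 0) (h : y ^ 2 = x * (x + 9) * (x - 16))
    (hv : padicValRat 2 x = 1 ∨ padicValRat 2 x = 3) : False := by
  obtain ⟨hx, h9, h16⟩ := x015_ne_of_eq hy h
  have hsum := x015_val_sum (p := 2) hy h
  have e2 : padicValRat 2 (x + 9) = 0 :=
    (x015_v2_add_nine hx h9).2.1 (by rcases hv with hv | hv <;> rw [hv] <;> norm_num)
  have e3 : padicValRat 2 (x - 16) = padicValRat 2 x :=
    (x015_v2_sub_sixteen hx h16).1 (by rcases hv with hv | hv <;> rw [hv] <;> norm_num)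
  have hz : padicValRat 2 (y / x) = 0 := by
    rw [padicValRat.div hy hx]
    rw [e2, e3] at hsum
    linarith
  have hz0 : y / x ≠ 0 := div_ne_zero hy hx
  have hv8 : padicValRat 2 (-8 : ℚ) = 3 := by rw [padicValRat.neg, x015_v2_eight]
  have hv144 : padicValRat 2 (-144 / x) = 4 - padicValRat 2 x := by
    rw [padicValRat.div (by norm_num) hx, padicValRat.neg, x015_v2_144]
  have key : (y / x) ^ 2 - 1 ≠ 0 ∧ padicValRat 2 ((y / x) ^ 2 - 1) = 1 := by
    rcases hv with hv | hv
    · have hzz : (y / x) ^ 2 - 1 = x + (-8 + -144 / x) := by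
        rw [x015_z_sq hy h]; ring
      rw [hzz]
      have := x015_val_add_ge (p := 2) (k := 3) (a := x) (b := -8 + -144 / x) hx
        (by rw [hv]; norm_num)
        (x015_ge_add (x015_ge_of_le hv8.ge) (x015_ge_of_le (by rw [hv144, hv]; norm_num)))
      rw [hv] at this
      exact this
    · have hzz : (y / x) ^ 2 - 1 = -144 / x + (x + -8) := by
        rw [x015_z_sq hy h]; ring
      rw [hzz]
      have hne : -144 / x ≠ 0 := div_ne_zero (by norm_num) hx
      have := x015_val_add_ge (p := 2) (k := 3) (a := -144 / x) (b := x + -8) hne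
        (by rw [hv144, hv]; norm_num)
        (x015_ge_add (x015_ge_of_le hv.ge) (x015_ge_of_le hv8.ge))
      rw [hv144, hv] at this
      norm_num at this
      exact this
  have := x015_two_sq_sub_one hz0 hz key.1
  rw [key.2] at this
  norm_num at this

/-- On `y² = x (x + 9) (x - 16)` with `y ≠ 0`, every valuation of `x` is even. -/
theorem x015_even_val_x (hy : y ≠ 0) (h : y ^ 2 = x * (x + 9) * (x - 16)) (p : ℕ)
    (hp : p.Prime) : Even (padicValRat p x) := by
  have : Fact p.Prime := ⟨hp⟩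
  obtain ⟨hx, h9, h16⟩ := x015_ne_of_eq hy h
  have hsum := x015_val_sum (p := p) hy h
  have h16' : x + (-16) ≠ 0 := by rwa [← sub_eq_add_neg]
  have hv16 : padicValRat p (-16 : ℚ) = padicValRat p (16 : ℚ) := padicValRat.neg _
  obtain ⟨a1, a2, a3⟩ := x015_val_add_const (p := p) hx (c := 9) (by norm_num) h9
  obtain ⟨b1, b2, b3⟩ := x015_val_add_const (p := p) hx (c := -16) (by norm_num) h16'
  rw [← sub_eq_add_neg, hv16] at b1 b2 b3
  have n9 := x015_vp_nine_nonneg p
  have n16 := x015_vp_sixteen_nonneg p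
  rcases lt_trichotomy (padicValRat p x) 0 with hk | hk | hk
  · rw [a1 (by linarith), b1 (by linarith)] at hsum
    exact ⟨padicValRat p y - padicValRat p x, by linarith⟩
  · rw [hk]; exact Even.zero
  · by_cases hp2 : p = 2
    · subst hp2
      have e2 : padicValRat 2 (x + 9) = 0 := (x015_v2_add_nine hx h9).2.1 hk
      rw [e2] at hsum
      by_cases h5 : 5 ≤ padicValRat 2 x
      · rw [(x015_v2_sub_sixteen hx h16).2.1 (by linarith)] at hsum
        exact ⟨padicValRat 2 y - 2, by linarith⟩
      · have hc : padicValRat 2 x = 1 ∨ padicValRat 2 x = 2 ∨ padicValRat 2 x = 3 ∨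
            padicValRat 2 x = 4 := by omega
        rcases hc with hc | hc | hc | hc
        · exact (x015_special2 hy h (Or.inl hc)).elim
        · rw [hc]; exact ⟨1, rfl⟩
        · exact (x015_special2 hy h (Or.inr hc)).elim
        · rw [hc]; exact ⟨2, rfl⟩
    · have e3 : padicValRat p (x - 16) = 0 := by
        rw [b2 (by rw [x015_vp_sixteen hp hp2]; exact hk), x015_vp_sixteen hp hp2]
      rw [e3] at hsum
      by_cases hp3 : p = 3
      · subst hp3
        by_cases h3 : 3 ≤ padicValRat 3 x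
        · rw [a2 (by rw [x015_v3_nine]; linarith), x015_v3_nine] at hsum
          exact ⟨padicValRat 3 y - 1, by linarith⟩
        · have hc : padicValRat 3 x = 1 ∨ padicValRat 3 x = 2 := by omega
          rcases hc with hc | hc
          · exact (x015_special3 hy h hc).elim
          · rw [hc]; exact ⟨1, rfl⟩
      · rw [a2 (by rw [x015_vp_nine hp hp3]; exact hk), x015_vp_nine hp hp3] at hsum
        exact ⟨padicValRat p y, by linarith⟩

/-- On `y² = x (x + 9) (x - 16)` with `y ≠ 0`, every valuation of `x + 9` at `p ≠ 5` is even. -/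
theorem x015_even_val_x9 (hy : y ≠ 0) (h : y ^ 2 = x * (x + 9) * (x - 16)) (p : ℕ)
    (hp : p.Prime) (hp5 : p ≠ 5) : Even (padicValRat p (x + 9)) := by
  have : Fact p.Prime := ⟨hp⟩
  obtain ⟨hx, h9, h16⟩ := x015_ne_of_eq hy h
  have hsum := x015_val_sum (p := p) hy h
  have hev := x015_even_val_x hy h p hp
  have h16' : x + (-16) ≠ 0 := by rwa [← sub_eq_add_neg]
  have hv16 : padicValRat p (-16 : ℚ) = padicValRat p (16 : ℚ) := padicValRat.neg _
  obtain ⟨a1, a2, a3⟩ := x015_val_add_const (p := p) hx (c := 9) (by norm_num) h9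
  obtain ⟨b1, b2, b3⟩ := x015_val_add_const (p := p) hx (c := -16) (by norm_num) h16'
  rw [← sub_eq_add_neg, hv16] at b1 b2 b3
  have n9 := x015_vp_nine_nonneg p
  have n16 := x015_vp_sixteen_nonneg p
  rcases lt_trichotomy (padicValRat p x) 0 with hk | hk | hk
  · rw [a1 (by linarith)]; exact hev
  · -- `v(x) = 0`
    have e2 : 0 ≤ padicValRat p (x + 9) := by
      have := a3; rw [hk] at this
      exact le_trans (le_min le_rfl n9) this
    have e3 : 0 ≤ padicValRat p (x - 16) := by
      have := b3; rw [hk] at this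
      exact le_trans (le_min le_rfl n16) this
    rcases eq_or_lt_of_le e3 with e3 | e3
    · rw [hk, ← e3] at hsum
      exact ⟨padicValRat p y, by linarith⟩
    · rcases eq_or_lt_of_le e2 with e2 | e2
      · rw [← e2]; exact Even.zero
      · exfalso
        have h25 : (x + 9) + (-(x - 16)) = 25 := by ring
        have hne : (x + 9) + (-(x - 16)) ≠ 0 := by rw [h25]; norm_num
        have := padicValRat.min_le_padicValRat_add (p := p) hne
        rw [h25, padicValRat.neg, x015_vp_twentyfive hp hp5] at this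
        have := lt_min e2 e3
        linarith
  · by_cases hp3 : p = 3
    · subst hp3
      have e3 : padicValRat 3 (x - 16) = 0 := by
        rw [b2 (by rw [x015_v3_sixteen]; exact hk), x015_v3_sixteen]
      rw [e3] at hsum
      by_cases h3 : 3 ≤ padicValRat 3 x
      · rw [a2 (by rw [x015_v3_nine]; linarith), x015_v3_nine]; exact ⟨1, rfl⟩
      · have hc : padicValRat 3 x = 1 ∨ padicValRat 3 x = 2 := by omega
        rcases hc with hc | hc
        · exact (x015_special3 hy h hc).elim
        · rw [hc] at hsum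
          exact ⟨padicValRat 3 y - 1, by linarith⟩
    · rw [a2 (by rw [x015_vp_nine hp hp3]; exact hk), x015_vp_nine hp hp3]; exact Even.zero

end Point

end Fermat.Agent.S51
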