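import Fermat.Agent.S51.X015Curve

/-!
# S51 / X015: 2-adic valuation of the `x`-coordinate under duplication (owner: helper4)
-/

set_option autoImplicit false

namespace Fermat.Agent.S51

local notation "v₂" => padicValRat 2

lemma x015_v2_nine : v₂ (9 : ℚ) = 0 := by
  have h1 : padicValRat 2 ((9 : ℕ) : ℚ) = padicValNat 2 9 := padicValRat.of_nat
  have h2 : padicValNat 2 9 = 0 := padicValNat.eq_zero_of_not_dvd (by norm_num)
  rw [h2] at h1
  simpa using h1

lemma x015_v2_two : v₂ (2 : ℚ) = 1 := by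
  have := padicValRat.self (p := 2) (by norm_num)
  simpa using this

lemma x015_v2_four : v₂ (4 : ℚ) = 2 := by
  have h : (4 : ℚ) = 2 ^ 2 := by norm_num
  rw [h, padicValRat.pow, x015_v2_two]; norm_num

lemma x015_v2_sixteen : v₂ (16 : ℚ) = 4 := by
  have h : (16 : ℚ) = 2 ^ 4 := by norm_num
  rw [h, padicValRat.pow, x015_v2_two]; norm_num

lemma x015_v2_144 : v₂ (144 : ℚ) = 4 := by
  have h : (144 : ℚ) = 16 * 9 := by norm_num
  rw [h, padicValRat.mul (by norm_num) (by norm_num), x015_v2_sixteen, x015_v2_nine]; norm_num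

/-- Valuation of `x + 9`. -/
lemma x015_v2_add_nine {x : ℚ} (hx : x ≠ 0) (h9 : x + 9 ≠ 0) :
    (v₂ x < 0 → v₂ (x + 9) = v₂ x) ∧ (0 < v₂ x → v₂ (x + 9) = 0) ∧
      (v₂ x = 0 → 0 ≤ v₂ (x + 9)) := by
  refine ⟨fun h => ?_, fun h => ?_, fun h => ?_⟩
  · exact padicValRat.add_eq_of_lt h9 hx (by norm_num) (by rw [x015_v2_nine]; exact h)
  · rw [add_comm] at h9 ⊢
    rw [padicValRat.add_eq_of_lt h9 (by norm_num) hx (by rw [x015_v2_nine]; exact h),
      x015_v2_nine]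
  · have := padicValRat.min_le_padicValRat_add (p := 2) h9
    rw [x015_v2_nine, h] at this
    simpa using this

/-- Valuation of `x - 16`. -/
lemma x015_v2_sub_sixteen {x : ℚ} (hx : x ≠ 0) (h16 : x - 16 ≠ 0) :
    (v₂ x < 4 → v₂ (x - 16) = v₂ x) ∧ (4 < v₂ x → v₂ (x - 16) = 4) ∧
      (v₂ x = 4 → 5 ≤ v₂ (x - 16)) := by
  have hv : v₂ (-16 : ℚ) = 4 := by rw [padicValRat.neg, x015_v2_sixteen]
  have h16' : x + (-16) ≠ 0 := by rwa [← sub_eq_add_neg]
  rw [sub_eq_add_neg]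
  refine ⟨fun h => ?_, fun h => ?_, fun h => ?_⟩
  · exact padicValRat.add_eq_of_lt h16' hx (by norm_num) (by rw [hv]; exact h)
  · rw [add_comm] at h16' ⊢
    rw [padicValRat.add_eq_of_lt h16' (by norm_num) hx (by rw [hv]; exact h), hv]
  · have := x015_two_strict hx (by norm_num) h16' (by rw [hv, h])
    rw [h] at this
    linarith

/-- Valuation of `x² + 144`. -/
lemma x015_v2_sq_add {x : ℚ} (hx : x ≠ 0) :
    (v₂ x < 2 → v₂ (x ^ 2 + 144) = 2 * v₂ x) ∧ (2 < v₂ x → v₂ (x ^ 2 + 144) = 4) ∧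
      (v₂ x = 2 → 5 ≤ v₂ (x ^ 2 + 144)) := by
  have hx2 : x ^ 2 ≠ 0 := pow_ne_zero 2 hx
  have hv : v₂ (x ^ 2) = 2 * v₂ x := by rw [padicValRat.pow]; norm_num
  have hne : x ^ 2 + 144 ≠ 0 := by positivity
  refine ⟨fun h => ?_, fun h => ?_, fun h => ?_⟩
  · rw [padicValRat.add_eq_of_lt hne hx2 (by norm_num) (by rw [hv, x015_v2_144]; linarith), hv]
  · rw [add_comm] at hne ⊢
    rw [padicValRat.add_eq_of_lt hne (by norm_num) hx2 (by rw [hv, x015_v2_144]; linarith),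
      x015_v2_144]
  · have := x015_two_strict hx2 (by norm_num) hne (by rw [hv, x015_v2_144, h]; norm_num)
    rw [hv, h] at this
    linarith

/-- The valuation of the `x`-coordinate of the double. -/
lemma x015_v2_double_formula {x X : ℚ} (hx : x ≠ 0) (h9 : x + 9 ≠ 0) (h16 : x - 16 ≠ 0)
    (h : X * (4 * x * (x + 9) * (x - 16)) = (x ^ 2 + 144) ^ 2) :
    v₂ X = 2 * v₂ (x ^ 2 + 144) - 2 - v₂ x - v₂ (x + 9) - v₂ (x - 16) := by
  have hne : x ^ 2 + 144 ≠ 0 := by positivity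
  have hX : X ≠ 0 := by
    intro hX
    rw [hX, zero_mul] at h
    exact pow_ne_zero 2 hne h.symm
  have h1 := congrArg (padicValRat 2) h
  rw [padicValRat.mul hX (by positivity), padicValRat.mul (by positivity) h16,
    padicValRat.mul (by positivity) h9, padicValRat.mul (by norm_num) hx, x015_v2_four,
    padicValRat.pow] at h1
  push_cast at h1
  linarith

/-- One duplication step, 2-adically. -/
lemma x015_v2_double {x X : ℚ} (hx : x ≠ 0) (h9 : x + 9 ≠ 0) (h16 : x - 16 ≠ 0)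
    (h : X * (4 * x * (x + 9) * (x - 16)) = (x ^ 2 + 144) ^ 2) :
    (v₂ x < 0 → v₂ X = v₂ x - 2) ∧ (v₂ x = 0 → v₂ X < 0) ∧ (4 ≤ v₂ x → v₂ X < 0) ∧
      (v₂ X < 0 ∨ v₂ X = 0 ∨ 4 ≤ v₂ X) := by
  have hf := x015_v2_double_formula hx h9 h16 h
  obtain ⟨a1, a2, a3⟩ := x015_v2_add_nine hx h9
  obtain ⟨b1, b2, b3⟩ := x015_v2_sub_sixteen hx h16
  obtain ⟨c1, c2, c3⟩ := x015_v2_sq_add hx
  have k1 : v₂ x < 0 → v₂ X = v₂ x - 2 := by
    intro hk
    rw [hf, a1 hk, b1 (by linarith), c1 (by linarith)]; ring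
  have k2 : v₂ x = 0 → v₂ X < 0 := by
    intro hk
    have := a3 hk
    rw [hf, b1 (by linarith), c1 (by linarith), hk]
    linarith
  have k3 : 4 ≤ v₂ x → v₂ X < 0 := by
    intro hk
    rcases eq_or_lt_of_le hk with hk4 | hk5
    · have := b3 hk4.symm
      rw [hf, a2 (by linarith), c2 (by linarith), ← hk4]
      linarith
    · rw [hf, a2 (by linarith), b2 hk5, c2 (by linarith)]
      linarith
  refine ⟨k1, k2, k3, ?_⟩
  rcases lt_trichotomy (v₂ x) 0 with hk | hk | hk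
  · left; rw [k1 hk]; linarith
  · left; exact k2 hk
  · by_cases h4 : 4 ≤ v₂ x
    · left; exact k3 h4
    · have hcases : v₂ x = 1 ∨ v₂ x = 2 ∨ v₂ x = 3 := by omega
      rcases hcases with h1 | h2 | h3
      · right; left
        rw [hf, a2 hk, b1 (by linarith), c1 (by linarith), h1]; norm_num
      · right; right
        have := c3 h2
        rw [hf, a2 hk, b1 (by linarith), h2]
        linarith
      · right; left
        rw [hf, a2 hk, b1 (by linarith), c2 (by linarith), h3]; norm_num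

/-- Two duplication steps always land in the region `v₂(x) < 0`. -/
lemma x015_v2_double_double {x X X' : ℚ} (hx : x ≠ 0) (h9 : x + 9 ≠ 0) (h16 : x - 16 ≠ 0)
    (h : X * (4 * x * (x + 9) * (x - 16)) = (x ^ 2 + 144) ^ 2)
    (hX : X ≠ 0) (hX9 : X + 9 ≠ 0) (hX16 : X - 16 ≠ 0)
    (h' : X' * (4 * X * (X + 9) * (X - 16)) = (X ^ 2 + 144) ^ 2) : v₂ X' < 0 := by
  obtain ⟨-, -, -, hc⟩ := x015_v2_double hx h9 h16 h
  obtain ⟨k1, k2, k3, -⟩ := x015_v2_double hX hX9 hX16 h'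
  rcases hc with hc | hc | hc
  · rw [k1 hc]; linarith
  · exact k2 hc
  · exact k3 hc

end Fermat.Agent.S51
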