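import Fermat.Agent.S51.Defs

/-!
# S51: x-only formulas on a general Weierstrass curve over a field
-/

set_option autoImplicit false
set_option linter.unusedSectionVars false
set_option linter.unusedSimpArgs false

namespace Fermat.Agent.S51

open WeierstrassCurve WeierstrassCurve.Affine

variable {F : Type*} [Field F] [DecidableEq F] {W : Affine F}

/-- Two nonzero points have the same x-coordinate iff they are equal or opposite. -/
theorem xc_eq_iff {P Q : W.Point} (hP : P ≠ 0) (hQ : Q ≠ 0) :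
    xc P = xc Q ↔ P = Q ∨ P = -Q := by
  rcases P with _ | ⟨x₁, y₁, h₁⟩
  · exact absurd rfl hP
  rcases Q with _ | ⟨x₂, y₂, h₂⟩
  · exact absurd rfl hQ
  simpa using Point.X_eq_iff (h₁ := h₁) (h₂ := h₂)

/-- Explicit Bezout identity between `dupN` and `dupD`. -/
theorem dupN_dupD_bezout {R : Type*} [CommRing R] (W : WeierstrassCurve R) (x : R) :
    W.Δ = (-48 * x ^ 2 - 8 * W.b₂ * x + W.b₂ ^ 2 - 32 * W.b₄) * dupN W x +
      (12 * x ^ 3 - W.b₂ * x ^ 2 - 10 * W.b₄ * x + W.b₂ * W.b₄ - 27 * W.b₆) * dupD W x := by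
  have h := W.b_relation
  simp only [dupN, dupD, WeierstrassCurve.Δ]
  grind

/-- (X3) `dupN` and `dupD` have no common zero when `Δ ≠ 0`. -/
theorem dupN_dupD_coprime (hΔ : W.Δ ≠ 0) (x : F) (hN : dupN W x = 0) (hD : dupD W x = 0) :
    False := by
  apply hΔ
  rw [dupN_dupD_bezout W x, hN, hD, mul_zero, mul_zero, add_zero]

/-- On the curve, `dupD` is the square of `ψ₂ = 2y + a₁x + a₃`. -/
theorem dupD_eq_sq {x y : F} (h : W.Equation x y) : dupD W x = (y - W.negY x y) ^ 2 := by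
  rw [equation_iff] at h
  simp only [dupD, negY, b₂, b₄, b₆]
  linear_combination (-4) * h

/-- (X1a) `2P = 0` iff the duplication denominator vanishes. -/
theorem dupD_eq_zero_iff (P : W.Point) (hP : P ≠ 0) : dupD W (xc P) = 0 ↔ P + P = 0 := by
  rcases P with _ | ⟨x, y, h⟩
  · exact absurd rfl hP
  rw [xc_some, dupD_eq_sq h.1, sq_eq_zero_iff, sub_eq_zero]
  constructor
  · intro hy
    exact Point.add_self_of_Y_eq hy
  · intro h0
    by_contra hy
    rw [Point.add_self_of_Y_ne hy] at h0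
    exact Point.some_ne_zero _ h0

/-- (X1b) duplication formula on x-coordinates. -/
theorem xc_double (P : W.Point) (hP : P ≠ 0) (h2 : P + P ≠ 0) :
    xc (P + P) * dupD W (xc P) = dupN W (xc P) := by
  rcases P with _ | ⟨x, y, h⟩
  · exact absurd rfl hP
  have hy : y ≠ W.negY x y := by
    intro hy
    exact h2 (Point.add_self_of_Y_eq hy)
  rw [Point.add_self_of_Y_ne hy, xc_some, xc_some, dupD_eq_sq h.1, slope_of_Y_ne rfl hy]
  have hd : y - W.negY x y ≠ 0 := sub_ne_zero.mpr hy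
  have he := h.1
  rw [equation_iff] at he
  simp only [addX, dupN, b₂, b₄, b₆, b₈]
  field_simp
  simp only [negY]
  grind

theorem xc_add_sub_aux {x₁ y₁ x₂ y₂ : F} (h₁ : W.Equation x₁ y₁) (h₂ : W.Equation x₂ y₂)
    (hx : x₁ ≠ x₂) :
    (W.addX x₁ x₂ ((y₁ - y₂) / (x₁ - x₂)) + W.addX x₁ x₂ ((y₁ - W.negY x₂ y₂) / (x₁ - x₂))) *
        (x₁ - x₂) ^ 2 =
      2 * (x₁ + x₂) * (x₁ * x₂) + W.b₂ * (x₁ * x₂) + W.b₄ * (x₁ + x₂) + W.b₆ ∧
    (W.addX x₁ x₂ ((y₁ - y₂) / (x₁ - x₂)) * W.addX x₁ x₂ ((y₁ - W.negY x₂ y₂) / (x₁ - x₂))) *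
        (x₁ - x₂) ^ 2 =
      (x₁ * x₂) ^ 2 - W.b₄ * (x₁ * x₂) - W.b₆ * (x₁ + x₂) - W.b₈ := by
  have hd : x₁ - x₂ ≠ 0 := sub_ne_zero.mpr hx
  rw [equation_iff] at h₁ h₂
  constructor
  · simp only [addX, negY, b₂, b₄, b₆, b₈]
    field_simp
    grind
  · simp only [addX, negY, b₂, b₄, b₆, b₈]
    field_simp
    grind

/-- (X2) the add-sub map on x-coordinates. -/
theorem xc_add_sub (P Q : W.Point) (hP : P ≠ 0) (hQ : Q ≠ 0) (hx : xc P ≠ xc Q) :
    P + Q ≠ 0 ∧ P - Q ≠ 0 ∧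
    (xc (P + Q) + xc (P - Q)) * (xc P - xc Q) ^ 2 =
      2 * (xc P + xc Q) * (xc P * xc Q) + W.b₂ * (xc P * xc Q) + W.b₄ * (xc P + xc Q) + W.b₆ ∧
    (xc (P + Q) * xc (P - Q)) * (xc P - xc Q) ^ 2 =
      (xc P * xc Q) ^ 2 - W.b₄ * (xc P * xc Q) - W.b₆ * (xc P + xc Q) - W.b₈ := by
  rcases P with _ | ⟨x₁, y₁, h₁⟩
  · exact absurd rfl hP
  rcases Q with _ | ⟨x₂, y₂, h₂⟩
  · exact absurd rfl hQ
  simp only [xc_some] at hx ⊢
  have hadd := Point.add_of_X_ne (h₁ := h₁) (h₂ := h₂) hx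
  have hsub : Point.some x₁ y₁ h₁ - Point.some x₂ y₂ h₂ =
      Point.some _ _ (nonsingular_add h₁ ((nonsingular_neg ..).mpr h₂) fun hxy => hx hxy.left) := by
    rw [sub_eq_add_neg, Point.neg_some]
    exact Point.add_of_X_ne hx
  rw [hadd, hsub]
  refine ⟨Point.some_ne_zero _, Point.some_ne_zero _, ?_⟩
  simp only [xc_some, slope_of_X_ne hx]
  exact xc_add_sub_aux h₁.1 h₂.1 hx

end Fermat.Agent.S51
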